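import Mathlib

/-!
# helper22: the fixed field of `Aut(ℂ)` is `ℚ`
-/

set_option autoImplicit false

noncomputable section

namespace H23

/-- A ring automorphism of the polynomial ring on a transcendence basis extends to `ℂ`. -/
theorem exists_ringEquiv_extending {F : Type*} [Field F] [Algebra F ℂ] {ι : Type*} (v : ι → ℂ)
    (hv : IsTranscendenceBasis F v) (θ : MvPolynomial ι F ≃+* MvPolynomial ι F) :
    ∃ σ : ℂ ≃+* ℂ, ∀ P : MvPolynomial ι F,
      σ (MvPolynomial.aeval v P) = MvPolynomial.aeval v (θ P) := by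
  let _i := IsAlgClosed.isAlgClosure_of_transcendence_basis v hv
  let e := hv.1.aevalEquiv
  let τ : Algebra.adjoin F (Set.range v) ≃+* Algebra.adjoin F (Set.range v) :=
    e.symm.toRingEquiv.trans (θ.trans e.toRingEquiv)
  refine ⟨IsAlgClosure.equivOfEquiv ℂ ℂ τ, fun P => ?_⟩
  have h1 : ∀ Q : MvPolynomial ι F,
      MvPolynomial.aeval v Q = algebraMap (Algebra.adjoin F (Set.range v)) ℂ (e Q) := fun Q =>
    (hv.1.algebraMap_aevalEquiv Q).symm
  rw [h1 P, IsAlgClosure.equivOfEquiv_algebraMap, h1 (θ P)]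
  congr 1
  simp [τ]

/-- An algebraic irrational complex number is moved by some automorphism of `ℂ`. -/
theorem exists_ringEquiv_ne_of_isAlgebraic (x : ℂ) (hx : IsAlgebraic ℚ x)
    (hxq : x ∉ Set.range (algebraMap ℚ ℂ)) : ∃ σ : ℂ ≃+* ℂ, σ x ≠ x := by
  have hxF : x ∈ algebraicClosure ℚ ℂ := (mem_algebraicClosure_iff).2 hx
  have hx' : (⟨x, hxF⟩ : algebraicClosure ℚ ℂ) ∉
      Set.range (algebraMap ℚ (algebraicClosure ℚ ℂ)) := by
    rintro ⟨q, hq⟩
    exact hxq ⟨q, by simpa using congrArg (algebraMap (algebraicClosure ℚ ℂ) ℂ) hq⟩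
  have : IsGalois ℚ (algebraicClosure ℚ ℂ) :=
    @IsAlgClosure.isGalois ℚ (algebraicClosure ℚ ℂ) _ _ _ (algebraicClosure.isAlgClosure ℚ ℂ) _
  rw [InfiniteGalois.mem_range_algebraMap_iff_fixed] at hx'
  push Not at hx'
  obtain ⟨τ₀, hτ₀⟩ := hx'
  obtain ⟨ι, v, hv⟩ := exists_isTranscendenceBasis' (algebraicClosure ℚ ℂ) ℂ
  obtain ⟨σ, hσ⟩ := exists_ringEquiv_extending v hv (MvPolynomial.mapEquiv ι τ₀.toRingEquiv)
  refine ⟨σ, fun h => hτ₀ ?_⟩
  have h2 := hσ (MvPolynomial.C ⟨x, hxF⟩)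
  simp only [MvPolynomial.aeval_C, MvPolynomial.mapEquiv_apply, MvPolynomial.map_C] at h2
  apply Subtype.ext
  have h3 : algebraMap (algebraicClosure ℚ ℂ) ℂ ⟨x, hxF⟩ = x := rfl
  rw [h3, h] at h2
  exact h2.symm

/-- A transcendental complex number is moved by some automorphism of `ℂ`. -/
theorem exists_ringEquiv_ne_of_transcendental (x : ℂ) (hx : Transcendental ℚ x) :
    ∃ σ : ℂ ≃+* ℂ, σ x ≠ x := by
  have hs : AlgebraicIndepOn ℚ id ({x} : Set ℂ) := by
    have := (algebraicIndependent_singleton_iff (R := ℚ) (x := fun i : ({x} : Set ℂ) => (i : ℂ))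
      ⟨x, rfl⟩).2 hx
    exact this
  obtain ⟨t, hst, ht⟩ := exists_isTranscendenceBasis_superset hs
  have hxt : x ∈ t := hst rfl
  let f : MvPolynomial t ℚ →ₐ[ℚ] MvPolynomial t ℚ := MvPolynomial.aeval fun i => -MvPolynomial.X i
  have hff : f.comp f = AlgHom.id ℚ _ := by
    apply MvPolynomial.algHom_ext
    intro i
    simp [f]
  let θ : MvPolynomial t ℚ ≃ₐ[ℚ] MvPolynomial t ℚ := AlgEquiv.ofAlgHom f f hff hff
  obtain ⟨σ, hσ⟩ := exists_ringEquiv_extending _ ht θ.toRingEquiv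
  refine ⟨σ, fun h => ?_⟩
  have h2 := hσ (MvPolynomial.X ⟨x, hxt⟩)
  have h3 : θ.toRingEquiv (MvPolynomial.X ⟨x, hxt⟩) = -MvPolynomial.X ⟨x, hxt⟩ := by
    simp [θ, f]
  rw [h3] at h2
  simp only [MvPolynomial.aeval_X, map_neg] at h2
  rw [h] at h2
  have hx0 : x = 0 := by
    have : (2 : ℂ) * x = 0 := by linear_combination h2
    simpa using this
  exact hx (hx0 ▸ isAlgebraic_zero)

/-- The fixed field of `Aut(ℂ)` is `ℚ`. -/
theorem exists_rat_of_forall_ringEquiv (x : ℂ) (h : ∀ σ : ℂ ≃+* ℂ, σ x = x) :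
    ∃ q : ℚ, (q : ℂ) = x := by
  by_contra hq
  have hxq : x ∉ Set.range (algebraMap ℚ ℂ) := by
    rintro ⟨q, hq'⟩
    exact hq ⟨q, by simpa using hq'⟩
  by_cases hx : IsAlgebraic ℚ x
  · obtain ⟨σ, hσ⟩ := exists_ringEquiv_ne_of_isAlgebraic x hx hxq
    exact hσ (h σ)
  · obtain ⟨σ, hσ⟩ := exists_ringEquiv_ne_of_transcendental x hx
    exact hσ (h σ)

end H23

end
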