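import Fermat.Agent.H23.Defs

/-!
# helper23: general lemmas for the reverse direction of the S23 Galois-stability argument
-/

set_option autoImplicit false

noncomputable section

namespace H23

open UpperHalfPlane ModularForm Filter Topology
open scoped MatrixGroups Manifold

/-- Scaling of the evaluation of a homogeneous polynomial. -/
theorem eval_smul_of_isHomogeneous {ι : Type*} {φ : MvPolynomial ι ℂ} {n : ℕ}
    (hφ : φ.IsHomogeneous n) (c : ℂ) (x : ι → ℂ) :
    MvPolynomial.eval (fun i => c * x i) φ = c ^ n * MvPolynomial.eval x φ := by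
  rw [MvPolynomial.eval_eq, MvPolynomial.eval_eq, Finset.mul_sum]
  refine Finset.sum_congr rfl fun d hd => ?_
  have hdeg : n = ∑ i ∈ d.support, d i := hφ.degree_eq_sum_deg_support hd
  have : ∏ i ∈ d.support, (c * x i) ^ d i = c ^ n * ∏ i ∈ d.support, x i ^ d i := by
    simp_rw [mul_pow]
    rw [Finset.prod_mul_distrib, Finset.prod_pow_eq_pow_sum, ← hdeg]
  rw [this]
  ring

/-- Holomorphy of polynomial expressions in holomorphic functions. -/
theorem mdiff_eval {ι : Type*} (x : ι → ℍ → ℂ) (hx : ∀ i, MDiff (x i))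
    (φ : MvPolynomial ι ℂ) : MDiff (fun z => MvPolynomial.eval (fun i => x i z) φ) := by
  induction φ using MvPolynomial.induction_on with
  | C a => simpa using mdifferentiable_const
  | add p q hp hq => simp only [map_add]; exact hp.add hq
  | mul_X p i hp => simp only [map_mul, MvPolynomial.eval_X]; exact hp.mul (hx i)

/-- Boundedness at `i∞` of polynomial expressions in functions bounded at `i∞`. -/
theorem bdd_eval {ι : Type*} (x : ι → ℍ → ℂ) (hx : ∀ i, IsBoundedAtImInfty (x i))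
    (φ : MvPolynomial ι ℂ) :
    IsBoundedAtImInfty (fun z => MvPolynomial.eval (fun i => x i z) φ) := by
  induction φ using MvPolynomial.induction_on with
  | C a => simp only [MvPolynomial.eval_C]; exact Filter.const_boundedAtFilter atImInfty a
  | add p q hp hq => simp only [map_add]; exact hp.add hq
  | mul_X p i hp => simp only [map_mul, MvPolynomial.eval_X]; exact hp.mul (hx i)

/-- Crude root bound for a monic polynomial equation. -/
theorem norm_le_sum_of_root (μ : ℕ) (c : ℕ → ℂ) (hc0 : c 0 = 1) (y : ℂ)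
    (hy : ∑ i ∈ Finset.range (μ + 1), c i * y ^ (μ - i) = 0) :
    ‖y‖ ≤ ∑ i ∈ Finset.range (μ + 1), ‖c i‖ := by
  have hB1 : (1 : ℝ) ≤ ∑ i ∈ Finset.range (μ + 1), ‖c i‖ := by
    have h0 : ‖c 0‖ ≤ ∑ i ∈ Finset.range (μ + 1), ‖c i‖ :=
      Finset.single_le_sum (f := fun i => ‖c i‖) (fun i _ => norm_nonneg _)
        (Finset.mem_range.mpr (Nat.succ_pos μ))
    simpa [hc0] using h0
  rcases le_or_gt ‖y‖ 1 with h1 | h1
  · exact h1.trans hB1
  -- now `1 < ‖y‖`
  rcases Nat.eq_zero_or_pos μ with rfl | hμ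
  · simp [hc0] at hy
  rw [Finset.sum_range_succ'] at hy
  simp only [hc0, Nat.sub_zero, one_mul] at hy
  have hyμ : y ^ μ = - ∑ i ∈ Finset.range μ, c (i + 1) * y ^ (μ - (i + 1)) := by
    linear_combination hy
  have hnorm : ‖y‖ ^ μ ≤ (∑ i ∈ Finset.range μ, ‖c (i + 1)‖) * ‖y‖ ^ (μ - 1) := by
    calc ‖y‖ ^ μ = ‖y ^ μ‖ := (norm_pow _ _).symm
      _ = ‖∑ i ∈ Finset.range μ, c (i + 1) * y ^ (μ - (i + 1))‖ := by rw [hyμ, norm_neg]
      _ ≤ ∑ i ∈ Finset.range μ, ‖c (i + 1) * y ^ (μ - (i + 1))‖ := norm_sum_le _ _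
      _ ≤ ∑ i ∈ Finset.range μ, ‖c (i + 1)‖ * ‖y‖ ^ (μ - 1) := by
          refine Finset.sum_le_sum fun i _ => ?_
          rw [norm_mul, norm_pow]
          refine mul_le_mul_of_nonneg_left ?_ (norm_nonneg _)
          exact pow_le_pow_right₀ h1.le (by omega)
      _ = (∑ i ∈ Finset.range μ, ‖c (i + 1)‖) * ‖y‖ ^ (μ - 1) := by rw [Finset.sum_mul]
  have hpos : 0 < ‖y‖ ^ (μ - 1) := pow_pos (lt_trans zero_lt_one h1) _
  have hy' : ‖y‖ ≤ ∑ i ∈ Finset.range μ, ‖c (i + 1)‖ := by
    have : ‖y‖ ^ μ = ‖y‖ * ‖y‖ ^ (μ - 1) := by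
      rw [← pow_succ', Nat.sub_add_cancel hμ]
    rw [this] at hnorm
    exact le_of_mul_le_mul_right hnorm hpos
  refine hy'.trans ?_
  rw [Finset.sum_range_succ' (fun i => ‖c i‖)]
  exact le_add_of_nonneg_right (norm_nonneg _)

end H23

end
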