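import Mathlib
import Fermat.Prelude.Def_ModularForm_HeckeOperator
import Fermat.Prelude.Def_FLTPrelim_Modularity

/-!
# helper23: shared definitions for the S23 (Galois stability) development
-/

set_option autoImplicit false

noncomputable section

namespace H23

open UpperHalfPlane ModularForm
open scoped MatrixGroups Manifold

/-- `Δ(N z)` as a function on the upper half plane (via the prelude's `heckeDiagMatrix`). -/
def deltaN (N : ℕ) (z : ℍ) : ℂ := ModularForm.discriminant (ModularForm.heckeDiagMatrix N • z)

/-- Evaluation point `(E₄³, Δ)` for level-one polynomials. -/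
def pt2 (z : ℍ) : Fin 2 → ℂ := ![E₄ z ^ 3, ModularForm.discriminant z]

/-- Evaluation point `(E₄³, Δ(N·), Δ)` for level-`N` polynomials. -/
def pt3 (N : ℕ) (z : ℍ) : Fin 3 → ℂ := ![E₄ z ^ 3, deltaN N z, ModularForm.discriminant z]

/-- "Nice" functions: holomorphic, `1`-periodic, bounded at `i∞`. -/
def Nice (F : ℍ → ℂ) : Prop :=
  MDiff F ∧ Function.Periodic (F ∘ UpperHalfPlane.ofComplex) 1 ∧ UpperHalfPlane.IsBoundedAtImInfty F

end H23

end
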