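import Mathlib
import Fermat.Agent.H23.Defs
import Fermat.Prelude.Thm_CongruenceSubgroup_one_mem_strictPeriods_Gamma0

/-!
# S23 Slice D (helper12): `Δ(N z)` as a modular form of level `Γ₀(N)`, and its stabiliser.
-/

set_option autoImplicit false

noncomputable section

open UpperHalfPlane ModularForm SlashInvariantForm SlashInvariantFormClass ModularFormClass
  CuspFormClass MatrixGroups OnePoint Filter EisensteinSeries Asymptotics Matrix.SpecialLinearGroup

open scoped Topology Manifold Real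

namespace H23

/-! ### Matrix bookkeeping -/

/-- Build an element of `SL(2,ℤ)` from its entries. -/
def h12_mkSL (a b c d : ℤ) (h : a * d - b * c = 1) : SL(2, ℤ) :=
  ⟨!![a, b; c, d], by rw [Matrix.det_fin_two_of]; exact h⟩

lemma h12_mapGL_val (g : SL(2, ℤ)) :
    ((mapGL ℝ g : GL (Fin 2) ℝ) : Matrix (Fin 2) (Fin 2) ℝ) =
      !![((g 0 0 : ℤ) : ℝ), ((g 0 1 : ℤ) : ℝ); ((g 1 0 : ℤ) : ℝ), ((g 1 1 : ℤ) : ℝ)] := by
  ext i j
  fin_cases i <;> fin_cases j <;> simp

lemma h12_mkSL_val (a b c d : ℤ) (h : a * d - b * c = 1) :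
    ((mapGL ℝ (h12_mkSL a b c d h) : GL (Fin 2) ℝ) : Matrix (Fin 2) (Fin 2) ℝ) =
      !![(a : ℝ), (b : ℝ); (c : ℝ), (d : ℝ)] := by
  rw [h12_mapGL_val]
  rfl

lemma h12_det (g : SL(2, ℤ)) : g 0 0 * g 1 1 - g 0 1 * g 1 0 = 1 := by
  have h := g.det_coe
  rwa [Matrix.det_fin_two] at h

/-- Commutation of `diag(N,1)` with an element of `Γ₀(N)`. -/
lemma h12_diag_mul_of_dvd {N : ℕ} (hN : N ≠ 0) (g : SL(2, ℤ)) (e : ℤ) (he : g 1 0 = N * e) :
    ∃ g' : SL(2, ℤ),
      heckeDiagMatrix N * mapGL ℝ g = mapGL ℝ g' * heckeDiagMatrix N := by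
  have hdet := h12_det g
  refine ⟨h12_mkSL (g 0 0) (N * g 0 1) e (g 1 1) (by linear_combination hdet + (g 0 1) * he), ?_⟩
  apply Units.ext
  rw [Units.val_mul, Units.val_mul, h12_mkSL_val, h12_mapGL_val, val_heckeDiagMatrix hN]
  have := congrArg (Int.cast : ℤ → ℝ) he
  push_cast at this
  ext i j
  fin_cases i <;> fin_cases j <;> simp [Matrix.mul_apply, Fin.sum_univ_two, this] <;> ring

/-! ### (D1) `Δ(N·)` is a modular form of weight `12` on `Γ₀(N)` -/

/-- `Δ(N z)` is a multiple of the slash translate of `Δ`. -/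
lemma deltaN_eq_smul_slash (N : ℕ) [NeZero N] :
    deltaN N =
      ((N : ℂ) ^ (11 : ℤ))⁻¹ • (ModularForm.discriminant ∣[(12 : ℤ)] heckeDiagMatrix N) := by
  funext z
  have hN : (N : ℂ) ≠ 0 := by exact_mod_cast NeZero.ne N
  rw [Pi.smul_apply, slash_heckeDiagMatrix_apply 12 (NeZero.ne N), smul_eq_mul]
  norm_num
  rw [← mul_assoc, inv_mul_cancel₀ (pow_ne_zero _ hN), one_mul]
  rfl

lemma deltaN_ne_zero (N : ℕ) (z : ℍ) : deltaN N z ≠ 0 := discriminant_ne_zero _

lemma h12_discriminant_slash (g : SL(2, ℤ)) :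
    ModularForm.discriminant ∣[(12 : ℤ)] (mapGL ℝ g : GL (Fin 2) ℝ) = ModularForm.discriminant := by
  have hmem : (mapGL ℝ g : GL (Fin 2) ℝ) ∈ 𝒮ℒ := ⟨g, rfl⟩
  exact SlashInvariantFormClass.slash_action_eq CuspForm.discriminant _ hmem

lemma deltaN_slash_of_mem_Gamma0 (N : ℕ) [NeZero N] (γ : SL(2, ℤ))
    (hγ : γ ∈ CongruenceSubgroup.Gamma0 N) : deltaN N ∣[(12 : ℤ)] γ = deltaN N := by
  rw [CongruenceSubgroup.Gamma0_mem] at hγ
  obtain ⟨e, he⟩ : (N : ℤ) ∣ γ 1 0 := (ZMod.intCast_zmod_eq_zero_iff_dvd _ _).mp hγ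
  obtain ⟨g', hg'⟩ := h12_diag_mul_of_dvd (NeZero.ne N) γ e he
  rw [deltaN_eq_smul_slash, ModularForm.SL_smul_slash, ModularForm.SL_slash,
    ← SlashAction.slash_mul]
  erw [hg']
  rw [SlashAction.slash_mul, h12_discriminant_slash]

lemma mdifferentiable_deltaN (N : ℕ) [NeZero N] : MDiff (deltaN N) := by
  rw [deltaN_eq_smul_slash]
  exact ((ModularFormClass.holo CuspForm.discriminant).slash 12 (heckeDiagMatrix N)).const_smul _

open ConjAct Pointwise in
lemma h12_Gamma0_le_conj (N : ℕ) [NeZero N] :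
    ((CongruenceSubgroup.Gamma0 N : Subgroup SL(2, ℤ)) : Subgroup (GL (Fin 2) ℝ)) ≤
      toConjAct (heckeDiagMatrix N)⁻¹ • (𝒮ℒ : Subgroup (GL (Fin 2) ℝ)) := by
  rintro _ ⟨γ, hγ, rfl⟩
  have hγ' := hγ
  rw [SetLike.mem_coe, CongruenceSubgroup.Gamma0_mem] at hγ'
  obtain ⟨e, he⟩ : (N : ℤ) ∣ γ 1 0 := (ZMod.intCast_zmod_eq_zero_iff_dvd _ _).mp hγ'
  obtain ⟨g', hg'⟩ := h12_diag_mul_of_dvd (NeZero.ne N) γ e he
  rw [map_inv, Subgroup.mem_inv_pointwise_smul_iff, toConjAct_smul]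
  refine ⟨g', ?_⟩
  rw [eq_mul_inv_iff_mul_eq]
  exact hg'.symm

lemma h12_isBoundedAt_smul {c : OnePoint ℝ} {f : ℍ → ℂ} {k : ℤ} (a : ℂ)
    (hf : c.IsBoundedAt f k) : c.IsBoundedAt (a • f) k := by
  intro g hg
  rw [ModularForm.smul_slash]
  exact (hf g hg).const_smul_left _

/-- **(D1)** `Δ(N·)` as a modular form of weight `12` and level `Γ₀(N)`. -/
def deltaNForm (N : ℕ) [NeZero N] : ModularForm (CongruenceSubgroup.Gamma0 N) 12 where
  toFun := deltaN N
  slash_action_eq' := by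
    rintro _ ⟨γ, hγ, rfl⟩
    exact deltaN_slash_of_mem_Gamma0 N γ hγ
  holo' := mdifferentiable_deltaN N
  bdd_at_cusps' := by
    intro c hc
    have hc' := hc.mono (h12_Gamma0_le_conj N)
    have h := (ModularForm.translate CuspForm.discriminant (heckeDiagMatrix N)).bdd_at_cusps' hc'
    rw [deltaN_eq_smul_slash]
    exact h12_isBoundedAt_smul _ h

@[simp] lemma coe_deltaNForm (N : ℕ) [NeZero N] : ⇑(deltaNForm N) = deltaN N := rfl

lemma deltaNForm_apply (N : ℕ) [NeZero N] (z : ℍ) : deltaNForm N z = deltaN N z := rfl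

/-! ### (D2) The stabiliser of `Δ(N·)` in `SL(2,ℤ)` is `Γ₀(N)` -/

/-- Hermite normal form of `diag(N,1) · γ`. -/
lemma h12_hermite {N : ℕ} (hN : N ≠ 0) (γ : SL(2, ℤ)) :
    ∃ (δ : SL(2, ℤ)) (g D : ℕ) (β : ℤ) (hgD : ((g : ℝ) * (D : ℝ)) ≠ 0),
      g * D = N ∧ (g : ℤ) ∣ γ 1 0 ∧
      heckeDiagMatrix N * mapGL ℝ γ = mapGL ℝ δ * upperTriangularGL g β D hgD := by
  have hdet := h12_det γ
  set a := γ 0 0 with ha
  set b := γ 0 1 with hb
  set c := γ 1 0 with hc
  set d := γ 1 1 with hd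
  set g : ℕ := Int.gcd c N with hg
  have hg0 : g ≠ 0 := by
    rw [hg]
    intro h0
    rw [Int.gcd_eq_zero_iff] at h0
    exact hN (by exact_mod_cast h0.2)
  have hgN : (g : ℤ) ∣ (N : ℤ) := Int.gcd_dvd_right c N
  have hgc : (g : ℤ) ∣ c := Int.gcd_dvd_left c N
  obtain ⟨D', hD'⟩ := hgN
  obtain ⟨c₁, hc₁⟩ := hgc
  have hg0' : (g : ℤ) ≠ 0 := by exact_mod_cast hg0
  have hD'pos : 0 < D' := by
    have hNpos : (0 : ℤ) < N := by exact_mod_cast Nat.pos_of_ne_zero hN
    have hgpos : (0 : ℤ) < g := by exact_mod_cast Nat.pos_of_ne_zero hg0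
    rw [hD'] at hNpos
    rcases lt_trichotomy D' 0 with h | h | h
    · nlinarith
    · rw [h] at hNpos; simp at hNpos
    · exact h
  obtain ⟨D, rfl⟩ : ∃ D : ℕ, (D : ℤ) = D' := ⟨D'.toNat, Int.toNat_of_nonneg hD'pos.le⟩
  -- coprimality
  have hcop1 : IsCoprime (D : ℤ) c₁ := by
    have h1 : Int.gcd (c / g) ((N : ℤ) / g) = 1 := by
      have := Int.gcd_div_gcd_div_gcd (i := c) (j := (N : ℤ)) (Nat.pos_of_ne_zero hg0)
      simpa [hg] using this
    have h2 : c / (g : ℤ) = c₁ := by rw [hc₁, Int.mul_ediv_cancel_left _ hg0']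
    have h3 : (N : ℤ) / (g : ℤ) = D := by rw [hD', Int.mul_ediv_cancel_left _ hg0']
    rw [h2, h3] at h1
    exact (Int.isCoprime_iff_gcd_eq_one.mpr h1).symm
  have hcop2 : IsCoprime a c₁ := by
    have : IsCoprime a c := ⟨d, -b, by linear_combination hdet⟩
    rw [hc₁] at this
    exact this.of_mul_right_right
  have hcop : IsCoprime ((D : ℤ) * a) c₁ := hcop1.mul_left hcop2
  obtain ⟨u, v, huv⟩ := hcop
  -- δ = [[D a, -v], [c₁, u]]
  have hδ : (D : ℤ) * a * u - (-v) * c₁ = 1 := by linear_combination huv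
  have hgD : ((g : ℝ) * (D : ℝ)) ≠ 0 := by
    have : (g : ℤ) * (D : ℤ) ≠ 0 := by rw [← hD']; exact_mod_cast hN
    exact_mod_cast this
  refine ⟨h12_mkSL ((D : ℤ) * a) (-v) c₁ u hδ, g, D, u * N * b - (-v) * d, hgD, ?_, ⟨c₁, hc₁⟩, ?_⟩
  · exact_mod_cast hD'.symm
  · apply Units.ext
    rw [Units.val_mul, Units.val_mul, h12_mkSL_val, h12_mapGL_val, val_heckeDiagMatrix hN,
      val_upperTriangularGL]
    have e1 := congrArg (Int.cast : ℤ → ℝ) hD'
    have e2 := congrArg (Int.cast : ℤ → ℝ) hc₁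
    have e3 := congrArg (Int.cast : ℤ → ℝ) huv
    have e4 := congrArg (Int.cast : ℤ → ℝ) hdet
    push_cast at e1 e2 e3 e4
    ext i j
    fin_cases i <;> fin_cases j <;> simp [Matrix.mul_apply, Fin.sum_univ_two]
    · rw [← ha, e1]; ring
    · rw [← hb]
      linear_combination (-(N : ℝ) * b) * e3 - (v * D) * e4 + (v * b * c₁) * e1 - (v * b * D) * e2
    · rw [← hc]
      linear_combination e2
    · rw [← hd]
      linear_combination (-(u * b * c₁ : ℝ)) * e1 + (u * b * D) * e2 + (u * D) * e4 - d * e3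

/-- The real translation `z ↦ z + x` as an element of `GL(2,ℝ)`. -/
noncomputable def h12_T (x : ℝ) : GL (Fin 2) ℝ := upperTriangularGL 1 x 1 (by norm_num)

lemma h12_T_val (x : ℝ) :
    ((h12_T x : GL (Fin 2) ℝ) : Matrix (Fin 2) (Fin 2) ℝ) = !![1, x; 0, 1] := rfl

lemma h12_T_det (x : ℝ) : ((h12_T x).det : ℝ) = 1 := by
  rw [Matrix.GeneralLinearGroup.val_det_apply, h12_T_val, Matrix.det_fin_two_of]
  ring

lemma h12_T_det_pos (x : ℝ) : 0 < ((h12_T x).det : ℝ) := by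
  rw [h12_T_det]; exact one_pos

lemma h12_T_denom (x : ℝ) (τ : ℍ) : denom (h12_T x) τ = 1 := by
  simp [denom, h12_T_val]

lemma h12_T_coe_smul (x : ℝ) (τ : ℍ) : ((h12_T x • τ : ℍ) : ℂ) = (τ : ℂ) + x := by
  rw [coe_smul_of_det_pos (h12_T_det_pos x)]
  simp [num, denom, h12_T_val]

lemma h12_T_σ (x : ℝ) : UpperHalfPlane.σ (h12_T x) = .refl ℝ ℂ := by
  rw [UpperHalfPlane.σ, if_pos (h12_T_det_pos x)]

lemma h12_slash_T_apply (k : ℤ) (x : ℝ) (f : ℍ → ℂ) (τ : ℍ) :
    (f ∣[k] h12_T x) τ = f (h12_T x • τ) := by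
  rw [ModularForm.slash_apply, h12_T_σ, h12_T_det, h12_T_denom]
  simp

/-- `Δ(w + x) / Δ(w) → exp(2πi x)` as `Im w → ∞`. -/
lemma h12_tendsto_discriminant_T_div (x : ℝ) :
    Tendsto (fun w : ℍ => ModularForm.discriminant (h12_T x • w) / ModularForm.discriminant w)
      atImInfty (𝓝 (Complex.exp (2 * π * Complex.I * x))) := by
  have hP := ModularForm.tendsto_atImInfty_tprod_one_sub_eta_q_pow
  have hT : Tendsto (fun w : ℍ => h12_T x • w) atImInfty atImInfty :=
    tendsto_smul_atImInfty (by simp [h12_T_val])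
  have hP' := hP.comp hT
  have hdiv := (hP'.div hP one_ne_zero).const_mul (Complex.exp (2 * π * Complex.I * x))
  rw [div_one, mul_one] at hdiv
  refine hdiv.congr (fun w => ?_)
  rw [ModularForm.discriminant_eq_q_prod, ModularForm.discriminant_eq_q_prod w]
  have hq : Function.Periodic.qParam 1 ((h12_T x • w : ℍ) : ℂ) =
      Complex.exp (2 * π * Complex.I * x) * Function.Periodic.qParam 1 (w : ℂ) := by
    rw [h12_T_coe_smul, Function.Periodic.qParam, Function.Periodic.qParam, ← Complex.exp_add]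
    congr 1
    push_cast
    ring
  have hq0 : Function.Periodic.qParam 1 (w : ℂ) ≠ 0 := by
    simp [Function.Periodic.qParam]
  rw [hq]
  field_simp
  rfl

/-- If `Δ` is invariant under the real translation by `x`, then `x` is an integer. -/
lemma h12_int_of_discriminant_slash_T (x : ℝ)
    (h : ModularForm.discriminant ∣[(12 : ℤ)] h12_T x = ModularForm.discriminant) :
    ∃ n : ℤ, x = n := by
  have h1 : ∀ w : ℍ, ModularForm.discriminant (h12_T x • w) / ModularForm.discriminant w = 1 := by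
    intro w
    have := congrFun h w
    rw [h12_slash_T_apply] at this
    rw [this, div_self (discriminant_ne_zero w)]
  have h2 := h12_tendsto_discriminant_T_div x
  have h3 : Tendsto (fun w : ℍ => ModularForm.discriminant (h12_T x • w) /
      ModularForm.discriminant w) atImInfty (𝓝 1) := by
    simp only [h1]
    exact tendsto_const_nhds
  have h4 : Complex.exp (2 * π * Complex.I * x) = 1 := tendsto_nhds_unique h2 h3
  rw [Complex.exp_eq_one_iff] at h4
  obtain ⟨n, hn⟩ := h4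
  refine ⟨n, ?_⟩
  have hpi : (2 * π * Complex.I : ℂ) ≠ 0 := by
    simp [Real.pi_ne_zero]
  have : (x : ℂ) = n := by
    apply mul_left_cancel₀ hpi
    rw [hn]; ring
  exact_mod_cast this

/-- **(D2)** The stabiliser of `Δ(N·)` (in weight `12`) inside `SL(2,ℤ)` is contained in
`Γ₀(N)`. -/
theorem mem_Gamma0_of_deltaN_slash_eq (N : ℕ) [NeZero N] (γ : SL(2, ℤ))
    (h : (deltaN N) ∣[(12 : ℤ)] γ = deltaN N) : γ ∈ CongruenceSubgroup.Gamma0 N := by
  have hN := NeZero.ne N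
  obtain ⟨δ, g, D, β, hgD, hgDN, hgc, hmat⟩ := h12_hermite hN γ
  have hNC : (N : ℂ) ≠ 0 := by exact_mod_cast hN
  have hNR : (N : ℝ) ≠ 0 := by exact_mod_cast hN
  have hc0 : ((N : ℂ) ^ (11 : ℤ))⁻¹ ≠ 0 := inv_ne_zero (zpow_ne_zero _ hNC)
  have hg0 : (g : ℝ) ≠ 0 := left_ne_zero_of_mul hgD
  have hD0 : (D : ℝ) ≠ 0 := right_ne_zero_of_mul hgD
  have hgDN' : (g : ℝ) * D = N := by exact_mod_cast hgDN
  -- (i) the hypothesis in terms of slash actions of `Δ`
  have hi : ModularForm.discriminant ∣[(12 : ℤ)] upperTriangularGL g β D hgD =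
      ModularForm.discriminant ∣[(12 : ℤ)] heckeDiagMatrix N := by
    have h1 : deltaN N ∣[(12 : ℤ)] γ = ((N : ℂ) ^ (11 : ℤ))⁻¹ •
        (ModularForm.discriminant ∣[(12 : ℤ)] upperTriangularGL g β D hgD) := by
      rw [deltaN_eq_smul_slash, ModularForm.SL_smul_slash, ModularForm.SL_slash,
        ← SlashAction.slash_mul]
      erw [hmat]
      rw [SlashAction.slash_mul, h12_discriminant_slash]
    rw [h1, deltaN_eq_smul_slash] at h
    exact smul_right_injective _ hc0 h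
  -- (ii) matrix identities
  have hm1 : upperTriangularGL g β D hgD * h12_T (1 / N) =
      h12_T (g / (N * D)) * upperTriangularGL g β D hgD := by
    apply Units.ext
    rw [Units.val_mul, Units.val_mul, h12_T_val, h12_T_val, val_upperTriangularGL]
    ext i j
    fin_cases i <;> fin_cases j <;> simp [Matrix.mul_apply, Fin.sum_univ_two]
    field_simp
    ring
  have hm2 : heckeDiagMatrix N * h12_T (1 / N) = h12_T 1 * heckeDiagMatrix N := by
    apply Units.ext
    rw [Units.val_mul, Units.val_mul, h12_T_val, h12_T_val, val_heckeDiagMatrix hN]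
    ext i j
    fin_cases i <;> fin_cases j <;> simp [Matrix.mul_apply, Fin.sum_univ_two]
  -- (iii) `Δ` is invariant under `z ↦ z + 1`
  have hT1 : ModularForm.discriminant ∣[(12 : ℤ)] h12_T 1 = ModularForm.discriminant := by
    have e : h12_T 1 = mapGL ℝ (h12_mkSL 1 1 0 1 (by norm_num)) := by
      apply Units.ext
      rw [h12_mkSL_val, h12_T_val]
      simp
    rw [e]
    exact h12_discriminant_slash _
  -- (iv) hence under `z ↦ z + x`
  have hTx : ModularForm.discriminant ∣[(12 : ℤ)] h12_T (g / (N * D)) =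
      ModularForm.discriminant := by
    have e : (ModularForm.discriminant ∣[(12 : ℤ)] h12_T (g / (N * D))) ∣[(12 : ℤ)]
        upperTriangularGL g β D hgD =
        ModularForm.discriminant ∣[(12 : ℤ)] upperTriangularGL g β D hgD := by
      rw [← SlashAction.slash_mul, ← hm1, SlashAction.slash_mul, hi, ← SlashAction.slash_mul, hm2,
        SlashAction.slash_mul, hT1]
    have e' := congrArg (fun f => f ∣[(12 : ℤ)] (upperTriangularGL g β D hgD)⁻¹) e
    simpa [← SlashAction.slash_mul] using e'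
  -- (v)
  obtain ⟨n, hn⟩ := h12_int_of_discriminant_slash_T _ hTx
  -- (vi)
  have hgn : (g : ℤ) = n * (N * D) := by
    have : (g : ℝ) = n * (N * D) := by
      rw [← hn]
      field_simp
    exact_mod_cast this
  have hNc : (N : ℤ) ∣ γ 1 0 := Dvd.dvd.trans ⟨n * D, by rw [hgn]; ring⟩ hgc
  rw [CongruenceSubgroup.Gamma0_mem]
  exact (ZMod.intCast_zmod_eq_zero_iff_dvd _ _).mpr hNc

/-- The stabiliser of `Δ(N·)` (weight `12`) in `SL(2,ℤ)` is exactly `Γ₀(N)`. -/
theorem deltaN_slash_eq_iff (N : ℕ) [NeZero N] (γ : SL(2, ℤ)) :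
    (deltaN N) ∣[(12 : ℤ)] γ = deltaN N ↔ γ ∈ CongruenceSubgroup.Gamma0 N :=
  ⟨mem_Gamma0_of_deltaN_slash_eq N γ, deltaN_slash_of_mem_Gamma0 N γ⟩

/-- All `SL(2,ℤ)`-translates of `Δ(N·)` are bounded at `i∞`. -/
lemma isBoundedAtImInfty_deltaN_slash (N : ℕ) [NeZero N] (γ : SL(2, ℤ)) :
    IsBoundedAtImInfty (deltaN N ∣[(12 : ℤ)] γ) :=
  ModularFormClass.bdd_at_infty_slash (deltaNForm N) γ

lemma isBoundedAtImInfty_deltaN (N : ℕ) [NeZero N] : IsBoundedAtImInfty (deltaN N) := by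
  have h := isBoundedAtImInfty_deltaN_slash N 1
  rwa [SlashAction.slash_one] at h

lemma periodic_deltaN (N : ℕ) [NeZero N] :
    Function.Periodic (deltaN N ∘ UpperHalfPlane.ofComplex) 1 := by
  have h := SlashInvariantFormClass.periodic_comp_ofComplex (deltaNForm N)
    (CongruenceSubgroup.one_mem_strictPeriods_Gamma0 N)
  simpa using h

/-- `Δ(N·)` is `Nice` (holomorphic, `1`-periodic, bounded at `i∞`). -/
lemma nice_deltaN (N : ℕ) [NeZero N] : Nice (deltaN N) :=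
  ⟨mdifferentiable_deltaN N, periodic_deltaN N, isBoundedAtImInfty_deltaN N⟩

end H23

end
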