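import Mathlib
import Fermat.Agent.H23.AutC

/-!
# helper22: a family whose relation space is `Aut(ℂ)`-stable and which is `ℤ`-linearly
independent is `ℂ`-linearly independent
-/

set_option autoImplicit false

noncomputable section

namespace H23

theorem linearIndependent_of_autStable {W : Type*} [AddCommGroup W] [Module ℂ W] {ι : Type*}
    [Fintype ι] (φ : ι → W) (hZ : LinearIndependent ℤ φ)
    (hstab : ∀ (σ : ℂ ≃+* ℂ) (c : ι → ℂ), ∑ i, c i • φ i = 0 → ∑ i, σ (c i) • φ i = 0) :
    LinearIndependent ℂ φ := by
  classical
  let _iQ : Module ℚ W := Module.compHom W (algebraMap ℚ ℂ)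
  have hQ : LinearIndependent ℚ φ := (LinearIndependent.iff_fractionRing ℤ ℚ).1 hZ
  rw [Fintype.linearIndependent_iff]
  have key : ∀ n : ℕ, ∀ c : ι → ℂ, ∑ i, c i • φ i = 0 →
      (Finset.univ.filter (fun i => c i ≠ 0)).card ≤ n → ∀ i, c i = 0 := by
    intro n
    induction n with
    | zero =>
      intro c _ hcard i
      by_contra hi
      have hmem : i ∈ Finset.univ.filter (fun i => c i ≠ 0) := by simp [hi]
      have := Finset.card_pos.2 ⟨i, hmem⟩
      omega
    | succ n ih =>
      intro c hc hcard i
      by_contra hi
      let c' : ι → ℂ := fun j => c j / c i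
      have hc' : ∑ j, c' j • φ j = 0 := by
        have : ∑ j, c' j • φ j = (c i)⁻¹ • ∑ j, c j • φ j := by
          rw [Finset.smul_sum]
          refine Finset.sum_congr rfl fun j _ => ?_
          simp [c', smul_smul, div_eq_inv_mul]
        rw [this, hc, smul_zero]
      have hc'i : c' i = 1 := div_self hi
      have hfix : ∀ σ : ℂ ≃+* ℂ, ∀ j, σ (c' j) = c' j := by
        intro σ j
        have hd : ∑ j, (σ (c' j) - c' j) • φ j = 0 := by
          simp only [sub_smul, Finset.sum_sub_distrib, hstab σ c' hc', hc', sub_zero]
        have hcard' : (Finset.univ.filter (fun j => σ (c' j) - c' j ≠ 0)).card ≤ n := by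
          have hsub : Finset.univ.filter (fun j => σ (c' j) - c' j ≠ 0) ⊆
              (Finset.univ.filter (fun j => c j ≠ 0)).erase i := by
            intro j hj
            simp only [Finset.mem_filter, Finset.mem_univ, true_and] at hj
            simp only [Finset.mem_erase, Finset.mem_filter, Finset.mem_univ, true_and]
            constructor
            · rintro rfl
              apply hj
              rw [hc'i]
              simp
            · intro hcj
              apply hj
              simp [c', hcj]
          have h1 := Finset.card_le_card hsub
          rw [Finset.card_erase_of_mem (by simp [hi])] at h1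
          omega
        exact sub_eq_zero.1 (ih _ hd hcard' j)
      choose q hq using fun j => exists_rat_of_forall_ringEquiv (c' j) (fun σ => hfix σ j)
      have hq0 : ∑ j, q j • φ j = 0 := by
        rw [← hc']
        refine Finset.sum_congr rfl fun j _ => ?_
        rw [← hq j]
        rfl
      have h2 := Fintype.linearIndependent_iff.1 hQ q hq0 i
      have h3 : c' i = 0 := by
        rw [← hq i, h2]
        simp
      rw [hc'i] at h3
      exact one_ne_zero h3
  intro c hc i
  exact key _ c hc le_rfl i

end H23

end
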