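import Mathlib
import Fermat.Prelude.Def_CuspForm_HeckeAlgebra
import Fermat.Prelude.Def_CuspForm_IntegralStructure
import Fermat.Agent.Lib.H20_LiftingLemma
import Fermat.Agent.H23.GalStable

/-!
# helper22: S23 Slice C — integral structure from finiteness of the Hecke algebra and
Galois stability of `S₂(Γ₀(N))`
-/

set_option autoImplicit false

noncomputable section

namespace H23

open ModularFormClass CongruenceSubgroup Fermat.Agent.H20

variable {N : ℕ} [NeZero N]

/-- For `n ≥ 1` there is a Hecke operator `t` with `a₁(t f) = aₙ(f)`. -/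
theorem exists_hecke_qCoeff (n : ℕ) (hn : 0 < n) :
    ∃ t ∈ CuspForm.heckeAlgebra N 2 (∅ : Set ℕ),
      ∀ f : CuspForm (Gamma0 N) 2, qCoeff ⇑(t f) 1 = qCoeff ⇑f n := by
  induction n using Nat.strong_induction_on with
  | _ n ih =>
    rcases Nat.eq_or_lt_of_le (Nat.succ_le_of_lt hn) with h1 | h1
    · refine ⟨1, Subalgebra.one_mem _, fun f => ?_⟩
      rw [← h1]
      rfl
    · have hn1 : n ≠ 1 := by omega
      have hp : (Nat.minFac n).Prime := Nat.minFac_prime hn1
      set p := Nat.minFac n with hpdef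
      obtain ⟨m, hm⟩ : p ∣ n := Nat.minFac_dvd n
      have hm0 : 0 < m := by
        rcases Nat.eq_zero_or_pos m with h | h
        · rw [h, mul_zero] at hm; omega
        · exact h
      have hmn : m < n := by
        rw [hm]
        exact (Nat.lt_mul_iff_one_lt_left hm0).2 hp.one_lt
      have hnmp : n = m * p := by rw [hm, mul_comm]
      obtain ⟨tm, htm, htm'⟩ := ih m hmn hm0
      by_cases hpN : p ∣ N
      · refine ⟨tm * CuspForm.heckeULin 2 hpN, Subalgebra.mul_mem _ htm
          (CuspForm.heckeULin_mem_heckeAlgebra hp hpN (Set.notMem_empty _)), fun f => ?_⟩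
        rw [Module.End.mul_apply, htm', qCoeff_heckeULin, hnmp]
      · by_cases hpm : p ∣ m
        · obtain ⟨m', hm'⟩ := hpm
          have hm'0 : 0 < m' := by
            rcases Nat.eq_zero_or_pos m' with h | h
            · rw [h, mul_zero] at hm'; omega
            · exact h
          have hm'n : m' < n := by
            have : m' ≤ m := by
              rw [hm']
              exact Nat.le_mul_of_pos_left _ hp.pos
            omega
          obtain ⟨tm', htm'1, htm'2⟩ := ih m' hm'n hm'0
          refine ⟨tm * CuspForm.heckeTLin 2 hp hpN - (p : ℤ) • tm',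
            Subalgebra.sub_mem _ (Subalgebra.mul_mem _ htm
              (CuspForm.heckeTLin_mem_heckeAlgebra hp hpN (Set.notMem_empty _)))
              (Subalgebra.zsmul_mem _ htm'1 _), fun f => ?_⟩
          have e1 : (tm * CuspForm.heckeTLin 2 hp hpN - (p : ℤ) • tm') f =
              tm (CuspForm.heckeTLin 2 hp hpN f) - (p : ℂ) • tm' f := by
            simp only [LinearMap.sub_apply, Module.End.mul_apply, LinearMap.smul_apply,
              natCast_zsmul]
            rw [Nat.cast_smul_eq_nsmul ℂ p (tm' f)]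
          rw [e1]
          have e2 : qCoeff ⇑(tm (CuspForm.heckeTLin 2 hp hpN f) - (p : ℂ) • tm' f) 1 =
              qCoeff ⇑(tm (CuspForm.heckeTLin 2 hp hpN f)) 1 - (p : ℂ) * qCoeff ⇑(tm' f) 1 := by
            have := (qCoeffLin N 2 1).map_sub (tm (CuspForm.heckeTLin 2 hp hpN f))
              ((p : ℂ) • tm' f)
            simp only [qCoeffLin_apply] at this
            rw [this, qCoeff_smul]
          rw [e2, htm', htm'2, qCoeff_heckeTLin, if_pos ⟨m', hm'⟩, hnmp]
          have e3 : m / p = m' := by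
            rw [hm']
            exact Nat.mul_div_cancel_left _ hp.pos
          rw [e3]
          norm_num
        · refine ⟨tm * CuspForm.heckeTLin 2 hp hpN, Subalgebra.mul_mem _ htm
            (CuspForm.heckeTLin_mem_heckeAlgebra hp hpN (Set.notMem_empty _)), fun f => ?_⟩
          rw [Module.End.mul_apply, htm', qCoeff_heckeTLin, if_neg hpm, hnmp, add_zero]

/-- Linearly independent functionals admit a dual family. -/
theorem exists_dual_family {K V : Type*} [Field K] [AddCommGroup V] [Module K V] {ι : Type*}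
    [Fintype ι] [DecidableEq ι] (φ : ι → (V →ₗ[K] K)) (h : LinearIndependent K φ) :
    ∃ F : ι → V, ∀ i j, φ i (F j) = if i = j then 1 else 0 := by
  let Ψ : V →ₗ[K] (ι → K) := LinearMap.pi φ
  have hsurj : LinearMap.range Ψ = ⊤ := by
    by_contra hne
    obtain ⟨l, hl0, hl⟩ := Submodule.exists_le_ker_of_lt_top _ (lt_top_iff_ne_top.2 hne)
    apply hl0
    have hrel : ∑ i, l (Pi.single i 1) • φ i = 0 := by
      ext f
      have h1 : Ψ f ∈ LinearMap.ker l := hl ⟨f, rfl⟩
      rw [LinearMap.mem_ker, LinearMap.pi_apply_eq_sum_univ l (Ψ f)] at h1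
      simp only [LinearMap.sum_apply, LinearMap.smul_apply, smul_eq_mul, LinearMap.zero_apply]
      rw [← h1]
      refine Finset.sum_congr rfl fun i _ => ?_
      have h2 : (fun j => if i = j then (1 : K) else 0) = Pi.single i 1 := by
        ext j
        simp [Pi.single_apply, eq_comm]
      rw [h2, mul_comm]
      rfl
    have h3 := Fintype.linearIndependent_iff.1 h _ hrel
    apply LinearMap.pi_ext
    intro i x
    have h4 : (Pi.single i x : ι → K) = x • Pi.single i 1 := by
      ext j
      simp [Pi.single_apply]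
    rw [h4, map_smul, h3 i]
    simp
  choose F hF using fun j => (LinearMap.range_eq_top.1 hsurj) (Pi.single j 1)
  refine ⟨F, fun i j => ?_⟩
  have h5 := congrFun (hF j) i
  simp only [Ψ, LinearMap.pi_apply, Pi.single_apply] at h5
  rw [h5]

/-- The `ℤ`-span of the coefficient functionals `aₙ`, `n ≥ 1`. -/
def coeffLattice (N : ℕ) : Submodule ℤ (CuspForm (Gamma0 N) 2 →ₗ[ℂ] ℂ) :=
  Submodule.span ℤ (Set.range fun n : ℕ => qCoeffLin N 2 (n + 1))

theorem qCoeffLin_mem_coeffLattice (N : ℕ) {n : ℕ} (hn : 0 < n) :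
    qCoeffLin N 2 n ∈ coeffLattice N :=
  Submodule.subset_span ⟨n - 1, by simp [Nat.sub_add_cancel hn]⟩

theorem coeffLattice_fg (hfin : Module.Finite ℤ (CuspForm.heckeAlgebra N 2 (∅ : Set ℕ))) :
    (coeffLattice N).FG := by
  let Φ : Module.End ℂ (CuspForm (Gamma0 N) 2) →ₗ[ℤ] (CuspForm (Gamma0 N) 2 →ₗ[ℂ] ℂ) :=
    { toFun := fun t => (qCoeffLin N 2 1).comp t
      map_add' := fun s t => by
        ext f
        exact (qCoeffLin N 2 1).map_add (s f) (t f)
      map_smul' := fun c t => by
        ext f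
        simp }
  have hM' : (Submodule.map Φ
      (Subalgebra.toSubmodule (CuspForm.heckeAlgebra N 2 (∅ : Set ℕ)))).FG :=
    Submodule.FG.map _ (Module.Finite.iff_fg.1 hfin)
  have hle : coeffLattice N ≤ Submodule.map Φ
      (Subalgebra.toSubmodule (CuspForm.heckeAlgebra N 2 (∅ : Set ℕ))) := by
    rw [coeffLattice, Submodule.span_le]
    rintro _ ⟨n, rfl⟩
    obtain ⟨t, ht, htf⟩ := exists_hecke_qCoeff (N := N) (n + 1) (Nat.succ_pos n)
    refine ⟨t, ht, ?_⟩
    ext f
    exact htf f
  have : IsNoetherian ℤ (Submodule.map Φ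
      (Subalgebra.toSubmodule (CuspForm.heckeAlgebra N 2 (∅ : Set ℕ)))) :=
    isNoetherian_of_fg_of_noetherian _ hM'
  have : IsNoetherian ℤ (coeffLattice N) := isNoetherian_of_le hle
  exact Module.Finite.iff_fg.1 inferInstance

theorem hasIntegralStructure_of_finite_of_galois (N : ℕ) [NeZero N]
    (hfin : Module.Finite ℤ (CuspForm.heckeAlgebra N 2 (∅ : Set ℕ)))
    (hGS : ∀ (σ : ℂ ≃+* ℂ) (f : CuspForm (CongruenceSubgroup.Gamma0 N) 2),
      ∃ g : CuspForm (CongruenceSubgroup.Gamma0 N) 2,
        ∀ n : ℕ, ModularFormClass.qCoeff g n = σ (ModularFormClass.qCoeff f n)) :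
    CuspForm.HasIntegralStructure N 2 := by
  classical
  have : Module.Finite ℤ (coeffLattice N) := Module.Finite.iff_fg.2 (coeffLattice_fg hfin)
  have : Module.Free ℤ (coeffLattice N) := inferInstance
  let b := Module.Free.chooseBasis ℤ (coeffLattice N)
  let φ : Module.Free.ChooseBasisIndex ℤ (coeffLattice N) → (CuspForm (Gamma0 N) 2 →ₗ[ℂ] ℂ) :=
    fun i => ((b i : coeffLattice N) : CuspForm (Gamma0 N) 2 →ₗ[ℂ] ℂ)
  have hZ : LinearIndependent ℤ φ :=
    b.linearIndependent.map' (coeffLattice N).subtype (Submodule.ker_subtype _)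
  have hMgal : ∀ (σ : ℂ ≃+* ℂ) (f g : CuspForm (Gamma0 N) 2),
      (∀ n, qCoeff ⇑g n = σ (qCoeff ⇑f n)) → ∀ ψ ∈ coeffLattice N, ψ g = σ (ψ f) := by
    intro σ f g hfg ψ hψ
    induction hψ using Submodule.span_induction with
    | mem ψ h =>
      obtain ⟨n, rfl⟩ := h
      exact hfg (n + 1)
    | zero => simp
    | add x y _ _ hx hy => simp [hx, hy]
    | smul c x _ hx => simp [hx]
  have hstab : ∀ (σ : ℂ ≃+* ℂ) (c : Module.Free.ChooseBasisIndex ℤ (coeffLattice N) → ℂ),
      ∑ i, c i • φ i = 0 → ∑ i, σ (c i) • φ i = 0 := by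
    intro σ c hc
    ext f
    obtain ⟨g, hg⟩ := hGS σ.symm f
    have h1 : ∀ i, φ i g = σ.symm (φ i f) := fun i => hMgal σ.symm f g hg (φ i) (b i).2
    have h2 : (∑ i, c i • φ i) g = 0 := by
      rw [hc]
      rfl
    simp only [LinearMap.sum_apply, LinearMap.smul_apply, smul_eq_mul,
      LinearMap.zero_apply] at h2 ⊢
    have h3 := congrArg σ h2
    rw [map_sum, map_zero] at h3
    simp only [map_mul, h1, RingEquiv.apply_symm_apply] at h3
    exact h3
  have hC : LinearIndependent ℂ φ := linearIndependent_of_autStable φ hZ hstab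
  obtain ⟨F, hF⟩ := exists_dual_family φ hC
  have hrepr : ∀ (ψ : CuspForm (Gamma0 N) 2 →ₗ[ℂ] ℂ) (hψ : ψ ∈ coeffLattice N)
      (f : CuspForm (Gamma0 N) 2), ψ f = ∑ i, ((b.repr ⟨ψ, hψ⟩ i : ℤ) : ℂ) * φ i f := by
    intro ψ hψ f
    have h1 := congrArg Subtype.val (b.sum_repr ⟨ψ, hψ⟩)
    simp only [Submodule.coe_sum, Submodule.coe_smul] at h1
    have h2 := congrArg (fun l : CuspForm (Gamma0 N) 2 →ₗ[ℂ] ℂ => l f) h1
    simp only [LinearMap.sum_apply, LinearMap.smul_apply] at h2
    rw [← h2]
    refine Finset.sum_congr rfl fun i _ => ?_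
    simp [φ]
  have hint : ∀ j, F j ∈ CuspForm.intLattice N 2 := by
    intro j
    apply Submodule.subset_span
    intro n
    rcases Nat.eq_zero_or_pos n with rfl | hn
    · exact ⟨0, by simpa using qCoeff_zero_eq_zero (F j)⟩
    · refine ⟨b.repr ⟨_, qCoeffLin_mem_coeffLattice N hn⟩ j, ?_⟩
      have h1 := hrepr _ (qCoeffLin_mem_coeffLattice N hn) (F j)
      simp only [hF, mul_ite, mul_one, mul_zero, Finset.sum_ite_eq', Finset.mem_univ,
        if_true, qCoeffLin_apply] at h1
      exact h1
  have hspan : ∀ f : CuspForm (Gamma0 N) 2, f = ∑ j, φ j f • F j := by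
    intro f
    have hzero : f - ∑ j, φ j f • F j = 0 := by
      apply eq_zero_of_forall_qCoeff
      have hφ : ∀ i, φ i (f - ∑ j, φ j f • F j) = 0 := by
        intro i
        simp only [map_sub, map_sum, map_smul, hF, smul_eq_mul, mul_ite, mul_one, mul_zero,
          Finset.sum_ite_eq, Finset.mem_univ, if_true, sub_self]
      intro n
      rcases Nat.eq_zero_or_pos n with rfl | hn
      · exact qCoeff_zero_eq_zero _
      · have h1 := hrepr _ (qCoeffLin_mem_coeffLattice N hn) (f - ∑ j, φ j f • F j)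
        simp only [hφ, mul_zero, Finset.sum_const_zero, qCoeffLin_apply] at h1
        exact h1
    exact sub_eq_zero.1 hzero
  rw [CuspForm.HasIntegralStructure, eq_top_iff]
  intro f _
  rw [hspan f]
  exact Submodule.sum_mem _ fun j _ => Submodule.smul_mem _ _ (Submodule.subset_span (hint j))

end H23

end
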