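import Fermat.Agent.S22
import Fermat.Agent.H23.Descent

/-!
# helper22: S23 Slice C combined with S22 — Galois stability alone gives the integral structure
-/

set_option autoImplicit false

namespace H23

theorem hasIntegralStructure_of_galois (N : ℕ) [NeZero N]
    (hGS : ∀ (σ : ℂ ≃+* ℂ) (f : CuspForm (CongruenceSubgroup.Gamma0 N) 2),
      ∃ g : CuspForm (CongruenceSubgroup.Gamma0 N) 2,
        ∀ n : ℕ, ModularFormClass.qCoeff g n = σ (ModularFormClass.qCoeff f n)) :
    CuspForm.HasIntegralStructure N 2 :=
  hasIntegralStructure_of_finite_of_galois N (Fermat.Agent.S22.result N 2 ∅) hGS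

end H23
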