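import Mathlib

/-!
# S23 forward direction (helper20), part 0: polynomial algebra

Pure algebra about the "coset polynomials" `∏ (X - a q)` and the Lagrange numerator
`∑ b q * ∏_{q' ≠ q} (X - a q')` over a commutative ring: behaviour under scaling of the nodes,
under permutation of the index set and evaluation at a node.
-/

set_option autoImplicit false

noncomputable section

namespace H23

open Polynomial

section algebra

variable {R : Type*} [CommRing R] {ι : Type*} [Fintype ι] [DecidableEq ι]

/-- The Lagrange numerator `∑_q b_q ∏_{q' ≠ q} (X - a_{q'})`. -/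
def h20_lagNum (a b : ι → R) : R[X] :=
  ∑ q : ι, C (b q) * Lagrange.nodal (Finset.univ.erase q) a

omit [Fintype ι] in
lemma h20_nodal_comp_scale (s : Finset ι) (a : ι → R) (u : R) :
    (Lagrange.nodal s (fun q => u * a q)).comp (C u * X) = C (u ^ s.card) * Lagrange.nodal s a := by
  classical
  induction s using Finset.induction_on with
  | empty => simp
  | insert i s hi ih =>
    rw [Lagrange.nodal_insert_eq_nodal hi, Lagrange.nodal_insert_eq_nodal hi, mul_comp, ih,
      Finset.card_insert_of_notMem hi, pow_succ]
    simp only [sub_comp, X_comp, C_comp, mul_comp, map_mul, map_pow]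
    ring

lemma h20_lagNum_comp_scale (a b : ι → R) (u : R) :
    (h20_lagNum (fun q => u * a q) (fun q => u * b q)).comp (C u * X) =
      C (u ^ Fintype.card ι) * h20_lagNum a b := by
  classical
  unfold h20_lagNum
  rw [Finset.mul_sum]
  have hsum : (∑ q : ι, C (u * b q) * Lagrange.nodal (Finset.univ.erase q) (fun q => u * a q)).comp
      (C u * X) = ∑ q : ι, (C (u * b q) *
        Lagrange.nodal (Finset.univ.erase q) (fun q => u * a q)).comp (C u * X) := by
    simp only [Polynomial.comp, Polynomial.eval₂_finsetSum]
  rw [hsum]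
  refine Finset.sum_congr rfl (fun q _ => ?_)
  rw [mul_comp, C_comp, h20_nodal_comp_scale, Finset.card_erase_of_mem (Finset.mem_univ q),
    Finset.card_univ]
  have hcard : Fintype.card ι = (Fintype.card ι - 1) + 1 := by
    have : 0 < Fintype.card ι := Fintype.card_pos_iff.mpr ⟨q⟩
    omega
  conv_rhs => rw [hcard, pow_succ]
  simp only [map_mul, map_pow]
  ring

omit [Fintype ι] [DecidableEq ι] in
lemma h20_nodal_map_equiv (σ : Equiv.Perm ι) (s : Finset ι) (a : ι → R) :
    Lagrange.nodal s (fun q => a (σ q)) = Lagrange.nodal (s.map σ.toEmbedding) a := by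
  simp [Lagrange.nodal_eq, Finset.prod_map]

omit [DecidableEq ι] in
lemma h20_nodal_univ_perm (σ : Equiv.Perm ι) (a : ι → R) :
    Lagrange.nodal Finset.univ (fun q => a (σ q)) = Lagrange.nodal Finset.univ a := by
  rw [Lagrange.nodal_eq, Lagrange.nodal_eq]
  exact Equiv.prod_comp σ (fun q => X - C (a q))

lemma h20_lagNum_perm (σ : Equiv.Perm ι) (a b : ι → R) :
    h20_lagNum (fun q => a (σ q)) (fun q => b (σ q)) = h20_lagNum a b := by
  classical
  unfold h20_lagNum
  rw [← Equiv.sum_comp σ (fun q => C (b q) * Lagrange.nodal (Finset.univ.erase q) a)]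
  refine Finset.sum_congr rfl (fun q _ => ?_)
  rw [h20_nodal_map_equiv]
  congr 2
  ext x
  simp only [Finset.mem_map_equiv, Finset.mem_erase, Finset.mem_univ, and_true, ne_eq]
  rw [Equiv.symm_apply_eq]

lemma h20_eval_lagNum_node (a b : ι → R) (q₀ : ι) :
    eval (a q₀) (h20_lagNum a b) =
      b q₀ * eval (a q₀) (derivative (Lagrange.nodal Finset.univ a)) := by
  classical
  unfold h20_lagNum
  rw [eval_finsetSum, Lagrange.eval_nodal_derivative_eval_node_eq (Finset.mem_univ q₀)]
  rw [Finset.sum_eq_single q₀]
  · simp
  · intro q _ hq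
    rw [eval_mul, Lagrange.eval_nodal_at_node (Finset.mem_erase.mpr ⟨hq.symm, Finset.mem_univ _⟩),
      mul_zero]
  · intro h; exact absurd (Finset.mem_univ q₀) h

/-- Coefficients of the scaled nodal polynomial. -/
lemma h20_nodal_coeff_scale (a : ι → R) (u : R) (n : ℕ) :
    (Lagrange.nodal Finset.univ (fun q => u * a q)).coeff n * u ^ n =
      u ^ Fintype.card ι * (Lagrange.nodal Finset.univ a).coeff n := by
  have h := congrArg (fun p => p.coeff n) (h20_nodal_comp_scale Finset.univ a u)
  simp only [comp_C_mul_X_coeff, Finset.card_univ, coeff_C_mul] at h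
  exact h

/-- Coefficients of the scaled Lagrange numerator. -/
lemma h20_lagNum_coeff_scale (a b : ι → R) (u : R) (n : ℕ) :
    (h20_lagNum (fun q => u * a q) (fun q => u * b q)).coeff n * u ^ n =
      u ^ Fintype.card ι * (h20_lagNum a b).coeff n := by
  have h := congrArg (fun p => p.coeff n) (h20_lagNum_comp_scale a b u)
  simp only [comp_C_mul_X_coeff, coeff_C_mul] at h
  exact h

lemma h20_natDegree_lagNum_lt [Nontrivial R] [Nonempty ι] (a b : ι → R) :
    (h20_lagNum a b).natDegree < Fintype.card ι := by
  classical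
  unfold h20_lagNum
  have hpos : 0 < Fintype.card ι := Fintype.card_pos
  refine lt_of_le_of_lt (natDegree_sum_le_of_forall_le _ _ (n := Fintype.card ι - 1) ?_)
    (by omega)
  intro q _
  refine (natDegree_C_mul_le _ _).trans ?_
  rw [Lagrange.natDegree_nodal, Finset.card_erase_of_mem (Finset.mem_univ q), Finset.card_univ]

end algebra

end H23

end
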