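import Mathlib
import Fermat.Agent.H23.Defs
import Fermat.Agent.S23.LevelOneJ

/-!
# S23 Slice A (helper12): level-one forms of weight `12 M` are homogeneous polynomials of
degree `M` in `(E₄³, Δ)`.
-/

set_option autoImplicit false

noncomputable section

open UpperHalfPlane ModularForm SlashInvariantForm SlashInvariantFormClass ModularFormClass
  CuspFormClass MatrixGroups OnePoint Filter EisensteinSeries Asymptotics

open scoped Topology Manifold

namespace H23

/-- The homogenisation (of degree `M`) of a one-variable polynomial of degree `≤ M`. -/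
def h12_homog (M : ℕ) (P : Polynomial ℂ) : MvPolynomial (Fin 2) ℂ :=
  ∑ i ∈ Finset.range (M + 1),
    MvPolynomial.C (P.coeff i) * MvPolynomial.X 0 ^ i * MvPolynomial.X 1 ^ (M - i)

lemma h12_homog_isHomogeneous (M : ℕ) (P : Polynomial ℂ) :
    (h12_homog M P).IsHomogeneous M := by
  unfold h12_homog
  refine MvPolynomial.IsHomogeneous.sum _ _ _ (fun i hi => ?_)
  have hi' : i ≤ M := Nat.lt_succ_iff.mp (Finset.mem_range.mp hi)
  have hX0 : (MvPolynomial.X (0 : Fin 2) ^ i : MvPolynomial (Fin 2) ℂ).IsHomogeneous i := by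
    simpa using (MvPolynomial.isHomogeneous_X ℂ (0 : Fin 2)).pow i
  have hX1 : (MvPolynomial.X (1 : Fin 2) ^ (M - i) : MvPolynomial (Fin 2) ℂ).IsHomogeneous
      (M - i) := by
    simpa using (MvPolynomial.isHomogeneous_X ℂ (1 : Fin 2)).pow (M - i)
  have h1 : (MvPolynomial.C (P.coeff i) * MvPolynomial.X (0 : Fin 2) ^ i *
      MvPolynomial.X (1 : Fin 2) ^ (M - i) : MvPolynomial (Fin 2) ℂ).IsHomogeneous
        (0 + i + (M - i)) :=
    ((MvPolynomial.isHomogeneous_C _ _).mul hX0).mul hX1
  have h2 : 0 + i + (M - i) = M := by omega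
  rwa [h2] at h1

lemma h12_homog_eval (M : ℕ) (P : Polynomial ℂ) (hP : P.natDegree ≤ M) (x y : ℂ) (hy : y ≠ 0) :
    MvPolynomial.eval ![x, y] (h12_homog M P) = y ^ M * P.eval (x / y) := by
  unfold h12_homog
  rw [map_sum, Polynomial.eval_eq_sum_range' (Nat.lt_succ_of_le hP), Finset.mul_sum]
  refine Finset.sum_congr rfl (fun i hi => ?_)
  have hi' : i ≤ M := Nat.lt_succ_iff.mp (Finset.mem_range.mp hi)
  simp only [map_mul, map_pow, MvPolynomial.eval_C, MvPolynomial.eval_X, Matrix.cons_val_zero,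
    Matrix.cons_val_one]
  have hM : y ^ M = y ^ (M - i) * y ^ i := by rw [← pow_add]; congr 1; omega
  rw [hM, div_pow]
  field_simp

/-- **Slice A**: a holomorphic function on `ℍ` which is invariant of weight `12 M` under
`SL(2,ℤ)` and bounded at `i∞` is a homogeneous polynomial of degree `M` in `(E₄³, Δ)`. -/
theorem exists_poly_of_levelOne (M : ℕ) (c : ℍ → ℂ) (hol : MDiff c)
    (inv : ∀ γ : SL(2, ℤ), c ∣[(12 * M : ℤ)] γ = c) (bdd : IsBoundedAtImInfty c) :
    ∃ R : MvPolynomial (Fin 2) ℂ, R.IsHomogeneous M ∧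
      ∀ z : ℍ, c z = MvPolynomial.eval (pt2 z) R := by
  let G : ModularForm 𝒮ℒ (12 * (M : ℤ)) :=
    { toFun := c
      slash_action_eq' := fun _ ⟨γ, hγ⟩ => hγ ▸ inv γ
      holo' := hol
      bdd_at_cusps' := by
        intro c' hc
        rw [isBoundedAt_iff_forall_SL2Z hc]
        intro γ _
        rw [inv γ]
        exact bdd }
  obtain ⟨P, hP, hPe⟩ := H12S23.exists_poly_of_modularForm M G
  refine ⟨h12_homog M P, h12_homog_isHomogeneous M P, fun z => ?_⟩
  have h := hPe z
  have hGz : G z = c z := rfl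
  rw [hGz] at h
  rw [h, pt2, h12_homog_eval M P hP _ _ (discriminant_ne_zero z)]
  rfl

end H23

end
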