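import Mathlib
import Fermat.Agent.H23.LevelOne
import Fermat.Agent.H23.ForwardAlg

/-!
# S23 forward direction (helper20), part 1: coefficients of coset polynomials are level-one forms
-/

set_option autoImplicit false

noncomputable section

open UpperHalfPlane ModularForm SlashInvariantForm SlashInvariantFormClass ModularFormClass
  CuspFormClass MatrixGroups OnePoint Filter EisensteinSeries Asymptotics

open scoped Topology Manifold

namespace H23

/-- The subalgebra of functions on `ℍ` which are holomorphic and bounded at `i∞`. -/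
def h20_holBdd : Subalgebra ℂ (ℍ → ℂ) where
  carrier := {F | MDiff F ∧ IsBoundedAtImInfty F}
  mul_mem' := fun hF hG => ⟨hF.1.mul hG.1, hF.2.mul hG.2⟩
  add_mem' := fun hF hG => ⟨hF.1.add hG.1, hF.2.add hG.2⟩
  algebraMap_mem' := fun c => ⟨mdifferentiable_const, Filter.const_boundedAtFilter _ c⟩

lemma h20_mem_holBdd {F : ℍ → ℂ} : F ∈ h20_holBdd ↔ MDiff F ∧ IsBoundedAtImInfty F := Iff.rfl

/-- Evaluation at a point as a ring hom on `h20_holBdd`. -/
def h20_ev (z : ℍ) : h20_holBdd →+* ℂ :=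
  (Pi.evalRingHom (fun _ : ℍ => ℂ) z).comp h20_holBdd.val.toRingHom

@[simp] lemma h20_ev_apply (z : ℍ) (F : h20_holBdd) : h20_ev z F = (F : ℍ → ℂ) z := rfl

variable {ι : Type*} [Fintype ι] [DecidableEq ι]

omit [Fintype ι] [DecidableEq ι] in
lemma h20_map_nodal (T : ι → h20_holBdd) (z : ℍ) (s : Finset ι) :
    Polynomial.map (h20_ev z) (Lagrange.nodal s T) =
      Lagrange.nodal s (fun q => (T q : ℍ → ℂ) z) := by
  simp [Lagrange.nodal_eq, Polynomial.map_prod]

lemma h20_map_lagNum (T K : ι → h20_holBdd) (z : ℍ) :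
    Polynomial.map (h20_ev z) (h20_lagNum T K) =
      h20_lagNum (fun q => (T q : ℍ → ℂ) z) (fun q => (K q : ℍ → ℂ) z) := by
  simp [h20_lagNum, Polynomial.map_sum, h20_map_nodal]

/-- Pointwise form of the slash action of `SL(2,ℤ)` for natural weight. -/
lemma h20_slash_pointwise {F G : ℍ → ℂ} {w : ℕ} {γ : SL(2, ℤ)} (h : F ∣[(w : ℤ)] γ = G) (z : ℍ) :
    F (γ • z) = denom (γ : GL (Fin 2) ℝ) z ^ w * G z := by
  have h1 := congrFun h z
  rw [SL_slash_apply] at h1
  have hd : denom (γ : GL (Fin 2) ℝ) z ≠ 0 := denom_ne_zero _ z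
  rw [← h1, zpow_neg, zpow_natCast]
  field_simp

/-- Conversely, a pointwise identity gives slash invariance. -/
lemma h20_slash_of_pointwise {F G : ℍ → ℂ} {w : ℕ} {γ : SL(2, ℤ)}
    (h : ∀ z : ℍ, F (γ • z) = denom (γ : GL (Fin 2) ℝ) z ^ w * G z) :
    F ∣[(w : ℤ)] γ = G := by
  ext z
  rw [SL_slash_apply, h z, zpow_neg, zpow_natCast]
  have hd : denom (γ : GL (Fin 2) ℝ) z ≠ 0 := denom_ne_zero _ z
  field_simp

/-- Common core: a family of holomorphic bounded functions `c n` with the scaling behaviour of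
the coefficients of a degree-`μ` coset polynomial of weight `12 k` consists of homogeneous
polynomials in `(E₄³, Δ)`. -/
theorem h20_exists_poly_of_scaling (k μ : ℕ) (c : ℕ → ℍ → ℂ) (hc : ∀ n, c n ∈ h20_holBdd)
    (hscale : ∀ (γ : SL(2, ℤ)) (z : ℍ) (n : ℕ),
      c n (γ • z) * (denom (γ : GL (Fin 2) ℝ) z ^ (12 * k)) ^ n =
        (denom (γ : GL (Fin 2) ℝ) z ^ (12 * k)) ^ μ * c n z)
    (hvan : ∀ n, μ < n → c n = 0) :
    ∃ ψ : ℕ → MvPolynomial (Fin 2) ℂ, (∀ n, (ψ n).IsHomogeneous (k * (μ - n))) ∧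
      ∀ (z : ℍ) (n : ℕ), c n z = MvPolynomial.eval (pt2 z) (ψ n) := by
  have key : ∀ n, ∃ R : MvPolynomial (Fin 2) ℂ, R.IsHomogeneous (k * (μ - n)) ∧
      ∀ z : ℍ, c n z = MvPolynomial.eval (pt2 z) R := by
    intro n
    by_cases hn : μ < n
    · refine ⟨0, MvPolynomial.isHomogeneous_zero _ _ _, fun z => ?_⟩
      rw [hvan n hn]; simp
    · have hn' : n ≤ μ := not_lt.mp hn
      refine exists_poly_of_levelOne (k * (μ - n)) (c n) (hc n).1 (fun γ => ?_) (hc n).2
      have hcast : (12 * ((k * (μ - n) : ℕ) : ℤ)) = ((12 * (k * (μ - n)) : ℕ) : ℤ) := by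
        push_cast; ring
      rw [hcast]
      refine h20_slash_of_pointwise (fun z => ?_)
      have hd : denom (γ : GL (Fin 2) ℝ) z ≠ 0 := denom_ne_zero _ z
      have h := hscale γ z n
      have hu : (denom (γ : GL (Fin 2) ℝ) z ^ (12 * k)) ^ n ≠ 0 := pow_ne_zero _ (pow_ne_zero _ hd)
      have hpow : (denom (γ : GL (Fin 2) ℝ) z ^ (12 * k)) ^ μ =
          denom (γ : GL (Fin 2) ℝ) z ^ (12 * (k * (μ - n))) *
            (denom (γ : GL (Fin 2) ℝ) z ^ (12 * k)) ^ n := by
        rw [← pow_mul, ← pow_mul, ← pow_add]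
        congr 1
        have : μ = (μ - n) + n := by omega
        conv_lhs => rw [this]
        ring
      rw [hpow] at h
      have h2 : c n (γ • z) * (denom (γ : GL (Fin 2) ℝ) z ^ (12 * k)) ^ n =
          (denom (γ : GL (Fin 2) ℝ) z ^ (12 * (k * (μ - n))) * c n z) *
            (denom (γ : GL (Fin 2) ℝ) z ^ (12 * k)) ^ n := by
        rw [h]; ring
      exact mul_right_cancel₀ hu h2
  choose ψ h1 h2 using key
  exact ⟨ψ, h1, fun z n => h2 n z⟩

/-- Coefficients of the coset polynomial `∏_q (X - T_q)` of a family of weight `12 k`. -/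
theorem h20_exists_poly_nodal (k : ℕ) (T : ι → ℍ → ℂ) (hT : ∀ q, T q ∈ h20_holBdd)
    (hperm : ∀ γ : SL(2, ℤ), ∃ σ : Equiv.Perm ι,
      ∀ q, T q ∣[((12 * k : ℕ) : ℤ)] γ = T (σ q)) :
    ∃ ψ : ℕ → MvPolynomial (Fin 2) ℂ,
      (∀ n, (ψ n).IsHomogeneous (k * (Fintype.card ι - n))) ∧
      ∀ (z : ℍ) (n : ℕ), (Lagrange.nodal Finset.univ (fun q => T q z)).coeff n =
        MvPolynomial.eval (pt2 z) (ψ n) := by
  set T' : ι → h20_holBdd := fun q => ⟨T q, hT q⟩ with hT'
  have hcoe : ∀ (z : ℍ) (n : ℕ), ((Lagrange.nodal Finset.univ T').coeff n : ℍ → ℂ) z =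
      (Lagrange.nodal Finset.univ (fun q => T q z)).coeff n := by
    intro z n
    rw [← h20_ev_apply, ← Polynomial.coeff_map, h20_map_nodal]
  refine h20_exists_poly_of_scaling k (Fintype.card ι)
    (fun n z => (Lagrange.nodal Finset.univ (fun q => T q z)).coeff n) (fun n => ?_) ?_ ?_
  · have : (fun z => (Lagrange.nodal Finset.univ (fun q => T q z)).coeff n) =
        ((Lagrange.nodal Finset.univ T').coeff n : ℍ → ℂ) := by
      funext z; exact (hcoe z n).symm
    rw [this]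
    exact ((Lagrange.nodal Finset.univ T').coeff n).2
  · intro γ z n
    obtain ⟨σ, hσ⟩ := hperm γ
    have h1 : (fun q => T q (γ • z)) =
        fun q => denom (γ : GL (Fin 2) ℝ) z ^ (12 * k) * T (σ q) z := by
      funext q
      exact h20_slash_pointwise (hσ q) z
    simp only [h1]
    rw [h20_nodal_univ_perm σ (fun q => denom (γ : GL (Fin 2) ℝ) z ^ (12 * k) * T q z)]
    exact h20_nodal_coeff_scale _ _ n
  · intro n hn
    funext z
    simp only [Pi.zero_apply]
    apply Polynomial.coeff_eq_zero_of_natDegree_lt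
    rw [Lagrange.natDegree_nodal, Finset.card_univ]
    exact hn

/-- Coefficients of the Lagrange numerator `∑_q K_q ∏_{q' ≠ q} (X - T_{q'})` of two families of
weight `12 k` permuted in the same way. -/
theorem h20_exists_poly_lagNum [Nonempty ι] (k : ℕ) (T K : ι → ℍ → ℂ)
    (hT : ∀ q, T q ∈ h20_holBdd) (hK : ∀ q, K q ∈ h20_holBdd)
    (hperm : ∀ γ : SL(2, ℤ), ∃ σ : Equiv.Perm ι,
      (∀ q, T q ∣[((12 * k : ℕ) : ℤ)] γ = T (σ q)) ∧
      (∀ q, K q ∣[((12 * k : ℕ) : ℤ)] γ = K (σ q))) :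
    ∃ g : ℕ → MvPolynomial (Fin 2) ℂ,
      (∀ n, (g n).IsHomogeneous (k * (Fintype.card ι - n))) ∧
      ∀ (z : ℍ) (n : ℕ), (h20_lagNum (fun q => T q z) (fun q => K q z)).coeff n =
        MvPolynomial.eval (pt2 z) (g n) := by
  set T' : ι → h20_holBdd := fun q => ⟨T q, hT q⟩ with hT'
  set K' : ι → h20_holBdd := fun q => ⟨K q, hK q⟩ with hK'
  have hcoe : ∀ (z : ℍ) (n : ℕ), ((h20_lagNum T' K').coeff n : ℍ → ℂ) z =
      (h20_lagNum (fun q => T q z) (fun q => K q z)).coeff n := by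
    intro z n
    rw [← h20_ev_apply, ← Polynomial.coeff_map, h20_map_lagNum]
  refine h20_exists_poly_of_scaling k (Fintype.card ι)
    (fun n z => (h20_lagNum (fun q => T q z) (fun q => K q z)).coeff n) (fun n => ?_) ?_ ?_
  · have : (fun z => (h20_lagNum (fun q => T q z) (fun q => K q z)).coeff n) =
        ((h20_lagNum T' K').coeff n : ℍ → ℂ) := by
      funext z; exact (hcoe z n).symm
    rw [this]
    exact ((h20_lagNum T' K').coeff n).2
  · intro γ z n
    obtain ⟨σ, hσT, hσK⟩ := hperm γ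
    have h1 : (fun q => T q (γ • z)) =
        fun q => denom (γ : GL (Fin 2) ℝ) z ^ (12 * k) * T (σ q) z := by
      funext q
      exact h20_slash_pointwise (hσT q) z
    have h2 : (fun q => K q (γ • z)) =
        fun q => denom (γ : GL (Fin 2) ℝ) z ^ (12 * k) * K (σ q) z := by
      funext q
      exact h20_slash_pointwise (hσK q) z
    simp only [h1, h2]
    rw [h20_lagNum_perm σ (fun q => denom (γ : GL (Fin 2) ℝ) z ^ (12 * k) * T q z)
      (fun q => denom (γ : GL (Fin 2) ℝ) z ^ (12 * k) * K q z)]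
    exact h20_lagNum_coeff_scale _ _ _ n
  · intro n hn
    funext z
    simp only [Pi.zero_apply]
    apply Polynomial.coeff_eq_zero_of_natDegree_lt
    exact lt_trans (h20_natDegree_lagNum_lt _ _) hn

end H23

end
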