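import Mathlib
import Fermat.Agent.H23.LevelOne
import Fermat.Agent.H23.ForwardAlg
import Fermat.Agent.H23.ForwardCoeff

/-!
# S23 forward direction (helper20), part 2: the integrality relation (R2)
-/

set_option autoImplicit false

noncomputable section

open UpperHalfPlane ModularForm SlashInvariantForm SlashInvariantFormClass ModularFormClass
  CuspFormClass MatrixGroups OnePoint Filter EisensteinSeries Asymptotics

open scoped Topology Manifold

namespace H23

open Matrix.SpecialLinearGroup ConjAct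
open scoped Pointwise

/-- `N` is a strict period of every `SL(2,ℤ)`-conjugate of `Γ₀(N)`. -/
lemma h20_mem_strictPeriods_conj (N : ℕ) (γ : SL(2, ℤ)) :
    (N : ℝ) ∈ (ConjAct.toConjAct (mapGL ℝ γ) •
      (Subgroup.map (mapGL ℝ) (CongruenceSubgroup.Gamma0 N))).strictPeriods := by
  have hT : ModularGroup.T ^ (N : ℤ) ∈ CongruenceSubgroup.Gamma N :=
    CongruenceSubgroup.ModularGroup_T_pow_mem_Gamma N N dvd_rfl
  have hN : (CongruenceSubgroup.Gamma N).Normal := CongruenceSubgroup.Gamma_normal N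
  have hconj : γ⁻¹ * ModularGroup.T ^ (N : ℤ) * γ ∈ CongruenceSubgroup.Gamma0 N := by
    apply CongruenceSubgroup.Gamma1_in_Gamma0
    have h1 : γ⁻¹ * ModularGroup.T ^ (N : ℤ) * γ ∈ CongruenceSubgroup.Gamma N := by
      simpa using hN.conj_mem _ hT γ⁻¹
    rw [CongruenceSubgroup.Gamma_mem] at h1
    rw [CongruenceSubgroup.Gamma1_mem]
    exact ⟨h1.1, h1.2.2.2, h1.2.2.1⟩
  have hU0 : ∀ m : ℤ, Matrix.GeneralLinearGroup.upperRightHom ((m : ℝ)) =
      mapGL ℝ (ModularGroup.T ^ m) := by
    intro m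
    simp only [Units.ext_iff, mapGL_coe_matrix, map_apply_coe]
    ext i j
    fin_cases i <;> fin_cases j <;> simp [ModularGroup.coe_T_zpow]
  have hU : Matrix.GeneralLinearGroup.upperRightHom ((N : ℝ)) =
      mapGL ℝ (ModularGroup.T ^ (N : ℤ)) := by
    have := hU0 (N : ℤ)
    rwa [Int.cast_natCast] at this
  rw [Subgroup.mem_strictPeriods_iff, Subgroup.mem_pointwise_smul_iff_inv_smul_mem, ← toConjAct_inv,
    toConjAct_smul, inv_inv, hU, ← map_inv, ← map_mul, ← map_mul]
  exact Subgroup.mem_map_of_mem _ hconj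

section family

variable (N : ℕ) [NeZero N]

/-- The index set `SL(2,ℤ) / Γ₀(N)`. -/
abbrev h20_Q : Type :=
  (𝒮ℒ : Subgroup (GL (Fin 2) ℝ)) ⧸
    (Subgroup.map (mapGL ℝ) (CongruenceSubgroup.Gamma0 N)).subgroupOf 𝒮ℒ

lemma h20_Q_finite : Finite (h20_Q N) := by
  unfold h20_Q
  infer_instance

/-- A `Fintype` structure on the index set (used as a local instance). -/
@[reducible] def h20_Q_fintype : Fintype (h20_Q N) :=
  haveI := h20_Q_finite N
  Fintype.ofFinite _

/-- Decidable equality on the index set (used as a local instance). -/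
@[reducible] def h20_Q_decEq : DecidableEq (h20_Q N) := Classical.decEq _

omit [NeZero N] in
lemma h20_Q_nonempty : Nonempty (h20_Q N) := ⟨((1 : 𝒮ℒ) : h20_Q N)⟩

attribute [local instance] h20_Q_fintype h20_Q_decEq h20_Q_nonempty

variable {N}
variable {k : ℤ} {F : Type*} [FunLike F ℍ ℂ]
  [SlashInvariantFormClass F (Subgroup.map (mapGL ℝ) (CongruenceSubgroup.Gamma0 N)) k]

omit [NeZero N] in
/-- Every translate in the family is a slash by an element of `SL(2,ℤ)`. -/
lemma h20_quotientFunc_eq_slash (f : F) (q : h20_Q N) :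
    ∃ γ : SL(2, ℤ), SlashInvariantForm.quotientFunc f q = (⇑f) ∣[k] γ := by
  induction q using Quotient.inductionOn with
  | h r =>
    obtain ⟨γ, hγ⟩ := r.2
    refine ⟨γ⁻¹, ?_⟩
    rw [SlashInvariantForm.quotientFunc_mk, SL_slash]
    congr 1
    rw [← hγ]
    simp [mapGL]

omit [NeZero N] in
/-- The slash action of `SL(2,ℤ)` permutes the translates. -/
lemma h20_quotientFunc_perm (f : F) (γ : SL(2, ℤ)) :
    ∃ σ : Equiv.Perm (h20_Q N), ∀ q,
      SlashInvariantForm.quotientFunc f q ∣[k] γ = SlashInvariantForm.quotientFunc f (σ q) := by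
  have hγ : (mapGL ℝ γ) ∈ (𝒮ℒ : Subgroup (GL (Fin 2) ℝ)) := ⟨γ, rfl⟩
  refine ⟨MulAction.toPerm ((⟨mapGL ℝ γ, hγ⟩ : (𝒮ℒ : Subgroup (GL (Fin 2) ℝ)))⁻¹), fun q => ?_⟩
  have := SlashInvariantForm.quotientFunc_smul f hγ q
  rw [MulAction.toPerm_apply, ← this, SL_slash]
  rfl

omit [NeZero N] in
/-- The coset of the identity gives back `f`. -/
lemma h20_quotientFunc_one (f : F) :
    SlashInvariantForm.quotientFunc f (((1 : 𝒮ℒ) : h20_Q N)) = ⇑f := by
  have : (((1 : 𝒮ℒ) : h20_Q N)) = ⟦(1 : 𝒮ℒ)⟧ := rfl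
  rw [this, SlashInvariantForm.quotientFunc_mk]
  simp

end family

section decay

variable (N : ℕ) [NeZero N] (f : CuspForm (CongruenceSubgroup.Gamma0 N) 2)

/-- Exponential decay of all `SL(2,ℤ)`-translates of a cusp form of level `Γ₀(N)`. -/
lemma h20_translate_isBigO (γ : SL(2, ℤ)) :
    (⇑f ∣[(2 : ℤ)] γ) =O[atImInfty] fun τ : ℍ => Real.exp (-2 * Real.pi * τ.im / N) := by
  have hper := h20_mem_strictPeriods_conj N γ⁻¹
  rw [map_inv] at hper
  have hpos : (0 : ℝ) < N := Nat.cast_pos.mpr (NeZero.pos N)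
  have := CuspFormClass.exp_decay_atImInfty (CuspForm.translate f (mapGL ℝ γ)) hpos hper
  exact this

omit [NeZero N] in
lemma h20_translate_mdiff (γ : SL(2, ℤ)) : MDiff (⇑f ∣[(2 : ℤ)] γ) :=
  (CuspForm.translate f (mapGL ℝ γ)).holo'

/-- The basic function `H = (f|γ)^(12N) / Δ` is holomorphic and bounded at `i∞`. -/
lemma h20_pow_div_disc_mem (γ : SL(2, ℤ)) :
    (fun z : ℍ => (⇑f ∣[(2 : ℤ)] γ) z ^ (12 * N) / ModularForm.discriminant z) ∈ h20_holBdd := by
  refine ⟨?_, ?_⟩
  · have h1 : MDiff (fun z : ℍ => (⇑f ∣[(2 : ℤ)] γ) z ^ (12 * N)) :=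
      (h20_translate_mdiff N f γ).pow (12 * N)
    exact h1.div CuspForm.discriminant.holo' discriminant_ne_zero
  · have hpos : (0 : ℝ) < N := Nat.cast_pos.mpr (NeZero.pos N)
    have h1 : (fun z : ℍ => (⇑f ∣[(2 : ℤ)] γ) z ^ (12 * N)) =O[atImInfty]
        fun τ : ℍ => Real.exp (-2 * Real.pi * τ.im / N) ^ (12 * N) :=
      (h20_translate_isBigO N f γ).pow (12 * N)
    have h2 : (fun τ : ℍ => Real.exp (-2 * Real.pi * τ.im / N) ^ (12 * N)) =O[atImInfty]
        fun τ : ℍ => Real.exp (-2 * Real.pi * τ.im) := by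
      refine IsBigO.of_bound 1 (Filter.Eventually.of_forall (fun τ => ?_))
      rw [one_mul, Real.norm_of_nonneg (by positivity), Real.norm_of_nonneg (by positivity),
        ← Real.exp_nat_mul]
      apply Real.exp_le_exp.mpr
      have him : 0 < τ.im := τ.im_pos
      have hN1 : (1 : ℝ) ≤ N := by exact_mod_cast NeZero.one_le
      have : ((12 * N : ℕ) : ℝ) * (-2 * Real.pi * τ.im / N) = -24 * Real.pi * τ.im := by
        push_cast
        field_simp
        ring
      rw [this]
      have hpi := Real.pi_pos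
      nlinarith [mul_pos hpi him]
    have h3 : (fun z : ℍ => (⇑f ∣[(2 : ℤ)] γ) z ^ (12 * N)) =O[atImInfty]
        ModularForm.discriminant := (h1.trans h2).trans exp_isBigO_discriminant
    exact (div_isBoundedUnder_of_isBigO h3).isBigO_one ℝ

end decay

section R2

attribute [local instance] h20_Q_fintype h20_Q_decEq h20_Q_nonempty

variable (N : ℕ) [NeZero N] (f : CuspForm (CongruenceSubgroup.Gamma0 N) 2)

/-- The family `H_q = (f|q)^(12N)/Δ`. -/
def h20_H (q : h20_Q N) (z : ℍ) : ℂ :=
  SlashInvariantForm.quotientFunc f q z ^ (12 * N) / ModularForm.discriminant z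

lemma h20_H_mem (q : h20_Q N) : h20_H N f q ∈ h20_holBdd := by
  obtain ⟨γ, hγ⟩ := h20_quotientFunc_eq_slash (k := 2) f q
  have := h20_pow_div_disc_mem N f γ
  unfold h20_H
  rw [hγ]
  exact this

omit [NeZero N] in
lemma h20_H_one (z : ℍ) :
    h20_H N f (((1 : 𝒮ℒ) : h20_Q N)) z = f z ^ (12 * N) / ModularForm.discriminant z := by
  unfold h20_H
  rw [h20_quotientFunc_one]

lemma h20_disc_smul (γ : SL(2, ℤ)) (z : ℍ) :
    ModularForm.discriminant (γ • z) =
      denom (γ : GL (Fin 2) ℝ) z ^ 12 * ModularForm.discriminant z := by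
  have hγ : (γ : GL (Fin 2) ℝ) ∈ 𝒮ℒ := ⟨γ, rfl⟩
  have h : (⇑CuspForm.discriminant) ∣[((12 : ℕ) : ℤ)] γ = ⇑CuspForm.discriminant := by
    rw [SL_slash]
    exact slash_action_eqn CuspForm.discriminant _ hγ
  exact h20_slash_pointwise h z

lemma h20_H_perm (γ : SL(2, ℤ)) :
    ∃ σ : Equiv.Perm (h20_Q N), ∀ q,
      h20_H N f q ∣[((12 * (2 * N - 1) : ℕ) : ℤ)] γ = h20_H N f (σ q) := by
  obtain ⟨σ, hσ⟩ := h20_quotientFunc_perm (k := 2) f γ
  refine ⟨σ, fun q => h20_slash_of_pointwise (fun z => ?_)⟩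
  have h1 := h20_slash_pointwise (w := 2) (hσ q) z
  have h2 := h20_disc_smul γ z
  have hd : denom (γ : GL (Fin 2) ℝ) z ≠ 0 := denom_ne_zero _ z
  have hΔ : ModularForm.discriminant z ≠ 0 := discriminant_ne_zero z
  have hN : 1 ≤ N := NeZero.one_le
  unfold h20_H
  rw [h1, h2, mul_pow, ← pow_mul]
  have hexp : 2 * (12 * N) = 12 * (2 * N - 1) + 12 := by omega
  rw [hexp, pow_add]
  field_simp

/-- **Slice E (R2)**: the integrality relation satisfied by `f ^ (12 N)` over level one. -/
theorem forward_R2 :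
    ∃ (μ : ℕ) (R : ℕ → MvPolynomial (Fin 2) ℂ),
      (∀ i, (R i).IsHomogeneous ((2 * N - 1) * i)) ∧ R 0 = 1 ∧
      ∀ z : ℍ, ∑ i ∈ Finset.range (μ + 1),
        MvPolynomial.eval (pt2 z) (R i) * ModularForm.discriminant z ^ i *
          (f z ^ (12 * N)) ^ (μ - i) = 0 := by
  obtain ⟨ψ, hψ, hψe⟩ := h20_exists_poly_nodal (2 * N - 1) (h20_H N f) (h20_H_mem N f)
    (h20_H_perm N f)
  set μ := Fintype.card (h20_Q N) with hμ
  refine ⟨μ, fun i => if i = 0 then 1 else if i ≤ μ then ψ (μ - i) else 0, ?_, by simp, ?_⟩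
  · intro i
    by_cases h0 : i = 0
    · subst h0
      simpa using MvPolynomial.isHomogeneous_one (Fin 2) ℂ
    · by_cases h1 : i ≤ μ
      · simp only [h0, h1, if_true, if_false]
        have := hψ (μ - i)
        have he : μ - (μ - i) = i := by omega
        rwa [he] at this
      · simp only [h0, h1, if_false]
        exact MvPolynomial.isHomogeneous_zero _ _ _
  · intro z
    set p := Lagrange.nodal Finset.univ (fun q => h20_H N f q z) with hp
    have hdeg : p.natDegree = μ := by
      rw [hp, Lagrange.natDegree_nodal, Finset.card_univ]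
    have hmonic : p.coeff μ = 1 := by
      have := (Lagrange.nodal_monic (s := Finset.univ) (v := fun q => h20_H N f q z))
      rw [← hdeg]
      exact this
    have hR : ∀ i ∈ Finset.range (μ + 1),
        MvPolynomial.eval (pt2 z) (if i = 0 then 1 else if i ≤ μ then ψ (μ - i) else 0) =
          p.coeff (μ - i) := by
      intro i hi
      have hi' : i ≤ μ := Nat.lt_succ_iff.mp (Finset.mem_range.mp hi)
      by_cases h0 : i = 0
      · subst h0
        simp [hmonic]
      · simp only [h0, hi', if_true, if_false]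
        exact (hψe z (μ - i)).symm
    have hΔ : ModularForm.discriminant z ≠ 0 := discriminant_ne_zero z
    set y := f z ^ (12 * N) / ModularForm.discriminant z with hy
    have hroot : p.eval y = 0 := by
      have := Lagrange.eval_nodal_at_node (s := Finset.univ) (v := fun q => h20_H N f q z)
        (Finset.mem_univ (((1 : 𝒮ℒ) : h20_Q N)))
      rw [h20_H_one] at this
      exact this
    rw [Polynomial.eval_eq_sum_range, hdeg, ← Finset.sum_range_reflect] at hroot
    have hfy : f z ^ (12 * N) = ModularForm.discriminant z * y := by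
      rw [hy]; field_simp
    calc ∑ i ∈ Finset.range (μ + 1),
          MvPolynomial.eval (pt2 z) (if i = 0 then 1 else if i ≤ μ then ψ (μ - i) else 0) *
            ModularForm.discriminant z ^ i * (f z ^ (12 * N)) ^ (μ - i)
        = ∑ i ∈ Finset.range (μ + 1), ModularForm.discriminant z ^ μ *
            (p.coeff (μ + 1 - 1 - i) * y ^ (μ + 1 - 1 - i)) := by
          refine Finset.sum_congr rfl (fun i hi => ?_)
          have hi' : i ≤ μ := Nat.lt_succ_iff.mp (Finset.mem_range.mp hi)
          rw [hR i hi, hfy, mul_pow]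
          have hsplit : ModularForm.discriminant z ^ μ =
              ModularForm.discriminant z ^ i * ModularForm.discriminant z ^ (μ - i) := by
            rw [← pow_add]; congr 1; omega
          rw [hsplit]
          simp only [Nat.add_sub_cancel]
          ring
      _ = ModularForm.discriminant z ^ μ * 0 := by
          rw [← Finset.mul_sum, hroot]
      _ = 0 := mul_zero _

end R2

end H23

end
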