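import Mathlib
import Fermat.Agent.H23.LevelOne
import Fermat.Agent.H23.DeltaN
import Fermat.Agent.H23.ForwardAlg
import Fermat.Agent.H23.ForwardCoeff
import Fermat.Agent.H23.ForwardR2

/-!
# S23 forward direction (helper20), part 3: the Lagrange interpolation relation (R1)
-/

set_option autoImplicit false

noncomputable section

open UpperHalfPlane ModularForm SlashInvariantForm SlashInvariantFormClass ModularFormClass
  CuspFormClass MatrixGroups OnePoint Filter EisensteinSeries Asymptotics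

open scoped Topology Manifold

namespace H23

open Matrix.SpecialLinearGroup

attribute [local instance] h20_Q_fintype h20_Q_decEq h20_Q_nonempty

section perm

variable (N : ℕ)

/-- The permutation of `SL(2,ℤ)/Γ₀(N)` induced by `γ⁻¹`. -/
def h20_sigma (γ : SL(2, ℤ)) : Equiv.Perm (h20_Q N) :=
  MulAction.toPerm ((⟨mapGL ℝ γ, ⟨γ, rfl⟩⟩ : (𝒮ℒ : Subgroup (GL (Fin 2) ℝ)))⁻¹)

variable {N}
variable {k : ℤ} {F : Type*} [FunLike F ℍ ℂ]
  [SlashInvariantFormClass F (Subgroup.map (mapGL ℝ) (CongruenceSubgroup.Gamma0 N)) k]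

lemma h20_quotientFunc_sigma (f : F) (γ : SL(2, ℤ)) (q : h20_Q N) :
    SlashInvariantForm.quotientFunc f q ∣[k] γ =
      SlashInvariantForm.quotientFunc f (h20_sigma N γ q) := by
  have hγ : (mapGL ℝ γ) ∈ (𝒮ℒ : Subgroup (GL (Fin 2) ℝ)) := ⟨γ, rfl⟩
  have := SlashInvariantForm.quotientFunc_smul f hγ q
  rw [h20_sigma, MulAction.toPerm_apply, ← this, SL_slash]
  rfl

end perm

section R1

variable (N : ℕ) [NeZero N] (f : CuspForm (CongruenceSubgroup.Gamma0 N) 2)

/-- The family of translates of `Δ(N·)`. -/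
def h20_T (q : h20_Q N) : ℍ → ℂ := SlashInvariantForm.quotientFunc (deltaNForm N) q

/-- The family of translates of `f · E₄ · E₆`. -/
def h20_K (q : h20_Q N) : ℍ → ℂ :=
  fun z => SlashInvariantForm.quotientFunc f q z * E₄ z * E₆ z

lemma h20_T_one : h20_T N (((1 : 𝒮ℒ) : h20_Q N)) = deltaN N := by
  unfold h20_T
  rw [h20_quotientFunc_one]
  rfl

omit [NeZero N] in
lemma h20_K_one (z : ℍ) : h20_K N f (((1 : 𝒮ℒ) : h20_Q N)) z = f z * E₄ z * E₆ z := by
  unfold h20_K
  rw [h20_quotientFunc_one]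

lemma h20_T_mem (q : h20_Q N) : h20_T N q ∈ h20_holBdd := by
  obtain ⟨γ, hγ⟩ := h20_quotientFunc_eq_slash (k := 12) (deltaNForm N) q
  unfold h20_T
  rw [hγ]
  refine ⟨(ModularForm.translate (deltaNForm N) (mapGL ℝ γ)).holo', ?_⟩
  exact ModularFormClass.bdd_at_infty_slash (deltaNForm N) γ

lemma h20_K_mem (q : h20_Q N) : h20_K N f q ∈ h20_holBdd := by
  obtain ⟨γ, hγ⟩ := h20_quotientFunc_eq_slash (k := 2) f q
  have h1 : SlashInvariantForm.quotientFunc f q ∈ h20_holBdd := by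
    rw [hγ]
    exact ⟨h20_translate_mdiff N f γ, (CuspFormClass.zero_at_infty_slash f γ).isBoundedAtImInfty⟩
  have h4 : (⇑E₄ : ℍ → ℂ) ∈ h20_holBdd :=
    ⟨ModularFormClass.holo E₄, ModularFormClass.bdd_at_infty E₄⟩
  have h6 : (⇑E₆ : ℍ → ℂ) ∈ h20_holBdd :=
    ⟨ModularFormClass.holo E₆, ModularFormClass.bdd_at_infty E₆⟩
  exact h20_holBdd.mul_mem (h20_holBdd.mul_mem h1 h4) h6

lemma h20_levelOne_smul {w : ℕ} (G : ModularForm 𝒮ℒ (w : ℤ)) (γ : SL(2, ℤ)) (z : ℍ) :
    G (γ • z) = denom (γ : GL (Fin 2) ℝ) z ^ w * G z := by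
  have hγ : (γ : GL (Fin 2) ℝ) ∈ 𝒮ℒ := ⟨γ, rfl⟩
  have h : (⇑G) ∣[(w : ℤ)] γ = ⇑G := by
    rw [SL_slash]
    exact slash_action_eqn G _ hγ
  exact h20_slash_pointwise h z

lemma h20_TK_perm (γ : SL(2, ℤ)) :
    ∃ σ : Equiv.Perm (h20_Q N),
      (∀ q, h20_T N q ∣[((12 * 1 : ℕ) : ℤ)] γ = h20_T N (σ q)) ∧
      (∀ q, h20_K N f q ∣[((12 * 1 : ℕ) : ℤ)] γ = h20_K N f (σ q)) := by
  refine ⟨h20_sigma N γ, fun q => ?_, fun q => h20_slash_of_pointwise (fun z => ?_)⟩
  · exact h20_quotientFunc_sigma (k := 12) (deltaNForm N) γ q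
  · have h1 := h20_slash_pointwise (w := 2) (h20_quotientFunc_sigma (k := 2) f γ q) z
    have h4 := h20_levelOne_smul (w := 4) E₄ γ z
    have h6 := h20_levelOne_smul (w := 6) E₆ γ z
    unfold h20_K
    rw [h1, h4, h6]
    ring

/-- The only coset whose translate of `Δ(N·)` is `Δ(N·)` itself is the trivial coset. -/
lemma h20_T_eq_deltaN (q : h20_Q N) (h : h20_T N q = deltaN N) :
    q = (((1 : 𝒮ℒ) : h20_Q N)) := by
  induction q using Quotient.inductionOn with
  | h r =>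
    obtain ⟨γ, hγ⟩ := r.2
    have h0 : h20_T N ⟦r⟧ = (⇑(deltaNForm N)) ∣[(12 : ℤ)] r.val⁻¹ :=
      SlashInvariantForm.quotientFunc_mk (deltaNForm N) r
    have hr : r.val⁻¹ = mapGL ℝ γ⁻¹ := by rw [map_inv, hγ]
    have h1 : deltaN N ∣[(12 : ℤ)] γ⁻¹ = deltaN N := by
      have h' : (⇑(deltaNForm N)) ∣[(12 : ℤ)] (mapGL ℝ γ⁻¹) = deltaN N := by
        rw [← hr, ← h0, h]
      rw [SL_slash]
      exact h'
    have h2 := mem_Gamma0_of_deltaN_slash_eq N γ⁻¹ h1
    have h3 : γ ∈ CongruenceSubgroup.Gamma0 N := by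
      have := (CongruenceSubgroup.Gamma0 N).inv_mem h2
      simpa using this
    symm
    refine QuotientGroup.eq.mpr ?_
    rw [Subgroup.mem_subgroupOf]
    refine ⟨γ, h3, ?_⟩
    simp [hγ]

/-- The renaming of variables `(X₀, X₁) ↦ (X₀, X₂)`. -/
def h20_rho : Fin 2 → Fin 3 := ![0, 2]

omit [NeZero N] in
lemma h20_pt3_comp_rho (z : ℍ) : pt3 N z ∘ h20_rho = pt2 z := by
  funext i
  fin_cases i <;> rfl

omit [NeZero N] in
lemma h20_eval_rename (z : ℍ) (p : MvPolynomial (Fin 2) ℂ) :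
    MvPolynomial.eval (pt3 N z) (MvPolynomial.rename h20_rho p) = MvPolynomial.eval (pt2 z) p := by
  rw [MvPolynomial.eval_rename, h20_pt3_comp_rho]

omit [NeZero N] in
lemma h20_pt3_one (z : ℍ) : pt3 N z 1 = deltaN N z := rfl

/-- **Slice F (R1)**: the Lagrange interpolation relation expressing `f · E₄ · E₆` rationally
in terms of `(E₄³, Δ(N·), Δ)`. -/
theorem forward_R1 :
    ∃ (a : ℕ) (P Q : MvPolynomial (Fin 3) ℂ), P.IsHomogeneous (a + 1) ∧ Q.IsHomogeneous a ∧
      (∃ z : ℍ, MvPolynomial.eval (pt3 N z) Q ≠ 0) ∧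
      ∀ z : ℍ, f z * E₄ z * E₆ z * MvPolynomial.eval (pt3 N z) Q =
        MvPolynomial.eval (pt3 N z) P := by
  obtain ⟨ψ, hψ, hψe⟩ := h20_exists_poly_nodal 1 (h20_T N) (h20_T_mem N)
    (fun γ => (h20_TK_perm N f γ).imp (fun σ h => h.1))
  obtain ⟨g, hg, hge⟩ := h20_exists_poly_lagNum 1 (h20_T N) (h20_K N f) (h20_T_mem N)
    (h20_K_mem N f) (h20_TK_perm N f)
  set μ := Fintype.card (h20_Q N) with hμdef
  have hμ : 0 < μ := Fintype.card_pos
  set q₀ : h20_Q N := (((1 : 𝒮ℒ) : h20_Q N)) with hq₀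
  set Q : MvPolynomial (Fin 3) ℂ := ∑ n ∈ Finset.range μ,
    MvPolynomial.C ((n : ℂ) + 1) * MvPolynomial.rename h20_rho (ψ (n + 1)) *
      MvPolynomial.X 1 ^ n with hQ
  set P : MvPolynomial (Fin 3) ℂ := ∑ n ∈ Finset.range μ,
    MvPolynomial.rename h20_rho (g n) * MvPolynomial.X 1 ^ n with hP
  have hXpow : ∀ n : ℕ, (MvPolynomial.X (1 : Fin 3) ^ n : MvPolynomial (Fin 3) ℂ).IsHomogeneous n := by
    intro n
    simpa using (MvPolynomial.isHomogeneous_X ℂ (1 : Fin 3)).pow n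
  -- evaluation of `Q` and `P`
  have hTq₀ : ∀ z, h20_T N q₀ z = deltaN N z := fun z => congrFun (h20_T_one N) z
  have hQe : ∀ z, MvPolynomial.eval (pt3 N z) Q = Polynomial.eval (deltaN N z)
      (Polynomial.derivative (Lagrange.nodal Finset.univ (fun q => h20_T N q z))) := by
    intro z
    have hdeg : (Polynomial.derivative
        (Lagrange.nodal Finset.univ (fun q => h20_T N q z))).natDegree < μ := by
      refine lt_of_le_of_lt (Polynomial.natDegree_derivative_le _) ?_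
      rw [Lagrange.natDegree_nodal, Finset.card_univ]
      omega
    rw [Polynomial.eval_eq_sum_range' hdeg, hQ, map_sum]
    refine Finset.sum_congr rfl (fun n _ => ?_)
    rw [map_mul, map_mul, map_pow, MvPolynomial.eval_C, MvPolynomial.eval_X, h20_eval_rename,
      h20_pt3_one, Polynomial.coeff_derivative, ← hψe z (n + 1)]
    ring
  have hPe : ∀ z, MvPolynomial.eval (pt3 N z) P = Polynomial.eval (deltaN N z)
      (h20_lagNum (fun q => h20_T N q z) (fun q => h20_K N f q z)) := by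
    intro z
    rw [Polynomial.eval_eq_sum_range' (h20_natDegree_lagNum_lt _ _), hP, map_sum]
    refine Finset.sum_congr rfl (fun n _ => ?_)
    rw [map_mul, map_pow, MvPolynomial.eval_X, h20_eval_rename, h20_pt3_one, ← hge z n]
  refine ⟨μ - 1, P, Q, ?_, ?_, ?_, ?_⟩
  · refine MvPolynomial.IsHomogeneous.sum _ _ _ (fun n hn => ?_)
    have hn' : n < μ := Finset.mem_range.mp hn
    have h1 := ((hg n).rename_isHomogeneous (f := h20_rho)).mul (hXpow n)
    have he : 1 * (μ - n) + n = μ - 1 + 1 := by omega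
    rwa [he] at h1
  · refine MvPolynomial.IsHomogeneous.sum _ _ _ (fun n hn => ?_)
    have hn' : n < μ := Finset.mem_range.mp hn
    have h1 := ((MvPolynomial.isHomogeneous_C (Fin 3) ((n : ℂ) + 1)).mul
      ((hψ (n + 1)).rename_isHomogeneous (f := h20_rho))).mul (hXpow n)
    have he : 0 + 1 * (μ - (n + 1)) + n = μ - 1 := by omega
    rwa [he] at h1
  · by_contra hall
    push Not at hall
    have hprod : ∏ q ∈ Finset.univ.erase q₀, (fun z => h20_T N q₀ z - h20_T N q z) = 0 := by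
      funext z
      have h1 := hall z
      rw [hQe z, ← hTq₀ z] at h1
      have h2 := Lagrange.eval_nodal_derivative_eval_node_eq (s := Finset.univ)
        (v := fun q => h20_T N q z) (Finset.mem_univ q₀)
      rw [h2, Lagrange.eval_nodal] at h1
      rw [Finset.prod_apply]
      exact h1
    rw [UpperHalfPlane.prod_eq_zero_iff] at hprod
    · obtain ⟨q, hq, hq0⟩ := hprod
      have hne : q ≠ q₀ := (Finset.mem_erase.mp hq).1
      apply hne
      apply h20_T_eq_deltaN N q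
      funext z
      have := congrFun hq0 z
      simp only [Pi.zero_apply] at this
      rw [← hTq₀ z]
      exact (sub_eq_zero.mp this).symm
    · intro q _
      exact (h20_T_mem N q₀).1.sub (h20_T_mem N q).1
  · intro z
    rw [hQe z, hPe z, ← hTq₀ z]
    have h := h20_eval_lagNum_node (fun q => h20_T N q z) (fun q => h20_K N f q z) q₀
    rw [h, h20_K_one]

end R1

end H23

end
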