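import Fermat.Agent.H23.ForwardR2
import Fermat.Agent.H23.ForwardR1

/-!
# S23 forward direction (helper20)

Umbrella file: `H23.forward_R2` (in `ForwardR2.lean`) and `H23.forward_R1` (in `ForwardR1.lean`).
-/
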