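import Mathlib
import Fermat.Agent.H23.Defs
import Fermat.Prelude.Thm_UpperHalfPlane_qCoeff_heckeT

/-!
# helper15: S23 Slice B — transfer of relations and of q-expansions under `σ ∈ Aut(ℂ)`

Main results (namespace `H23`):

* `H23.rel_transfer`: a polynomial relation `Θ(E₄³, Δ(N·), Δ) = 0` stays true after applying
  `σ` to the coefficients of `Θ`.
* `H23.qExp_transfer`: if `f·E₄·E₆·Q(pt3) = P(pt3)` and `g·E₄·E₆·(σQ)(pt3) = (σP)(pt3)`
  then the `q`-expansion of `g` is `σ` applied to the `q`-expansion of `f`.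

Reusable helpers (namespace `H23.Rel`): `Nice` functions are closed under `+ - * ^` and
constants (`nice_add`, `nice_sub`, `nice_mul`, `nice_pow`, `nice_const`), `E₄ E₆ Δ Δ(N·)` are
`Nice` (`nice_E4`, `nice_E6`, `nice_discriminant`, `nice_deltaN`), `qExpansion 1` of
`Δ(N·)` (`qExpansion_deltaN_coeff`), and the evaluation map `evalFun` with its `q`-expansion
`qExpansion_evalFun`.
-/

set_option autoImplicit false

noncomputable section

namespace H23

open UpperHalfPlane ModularForm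
open scoped MatrixGroups Manifold

namespace Rel

/-! ### The algebra of nice functions -/

lemma analyticAt_of_nice {F : ℍ → ℂ} (hF : Nice F) : AnalyticAt ℂ (cuspFunction 1 F) 0 :=
  analyticAt_cuspFunction_zero one_pos hF.2.1 hF.1 hF.2.2

lemma nice_const (a : ℂ) : Nice (fun _ : ℍ => a) := by
  refine ⟨mdifferentiable_const, fun w => rfl, ?_⟩
  exact Filter.const_boundedAtFilter _ a

lemma nice_add {F G : ℍ → ℂ} (hF : Nice F) (hG : Nice G) : Nice (F + G) := by
  refine ⟨hF.1.add hG.1, ?_, hF.2.2.add hG.2.2⟩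
  intro w
  have h1 := hF.2.1 w
  have h2 := hG.2.1 w
  simp only [Function.comp_apply, Pi.add_apply] at h1 h2 ⊢
  rw [h1, h2]

lemma nice_mul {F G : ℍ → ℂ} (hF : Nice F) (hG : Nice G) : Nice (F * G) := by
  refine ⟨hF.1.mul hG.1, ?_, hF.2.2.mul hG.2.2⟩
  intro w
  have h1 := hF.2.1 w
  have h2 := hG.2.1 w
  simp only [Function.comp_apply, Pi.mul_apply] at h1 h2 ⊢
  rw [h1, h2]

lemma nice_one : Nice (1 : ℍ → ℂ) := nice_const 1

lemma nice_pow {F : ℍ → ℂ} (hF : Nice F) (n : ℕ) : Nice (F ^ n) := by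
  induction n with
  | zero => simpa using nice_one
  | succ n ih => rw [pow_succ]; exact nice_mul ih hF

lemma nice_sub {F G : ℍ → ℂ} (hF : Nice F) (hG : Nice G) : Nice (F - G) := by
  have : F - G = F + (fun _ => (-1 : ℂ)) * G := by
    funext z; simp [sub_eq_add_neg]
  rw [this]
  exact nice_add hF (nice_mul (nice_const (-1)) hG)

lemma nice_of_modularFormClass {F : Type*} [FunLike F ℍ ℂ] {k : ℤ} [ModularFormClass F 𝒮ℒ k]
    (f : F) : Nice (⇑f) :=
  ⟨ModularFormClass.holo f,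
    by simpa using SlashInvariantFormClass.periodic_comp_ofComplex f one_mem_strictPeriods_SL,
    ModularFormClass.bdd_at_infty f⟩

lemma nice_E4 : Nice (⇑E₄) := nice_of_modularFormClass E₄

lemma nice_E6 : Nice (⇑E₆) := nice_of_modularFormClass E₆

lemma nice_discriminant : Nice ModularForm.discriminant :=
  nice_of_modularFormClass CuspForm.discriminant

lemma deltaN_eq_slash (N : ℕ) [NeZero N] :
    deltaN N = ModularForm.discriminant ∣[(1 : ℤ)] heckeDiagMatrix N := by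
  funext z
  rw [slash_heckeDiagMatrix_apply 1 (NeZero.ne N)]
  simp [deltaN]

lemma nice_deltaN (N : ℕ) [NeZero N] : Nice (deltaN N) := by
  have hN : N ≠ 0 := NeZero.ne N
  refine ⟨?_, ?_, ?_⟩
  · rw [deltaN_eq_slash]
    exact nice_discriminant.1.slash 1 _
  · apply P2MW.S_UpperHalfPlane_qCoeff_heckeT.M4cP1W2.periodic_comp_ofComplex_of_vadd
    intro τ
    exact P2MW.S_UpperHalfPlane_qCoeff_heckeT.M4cP1W2.apply_eq_of_coe_eq_add_nat
      nice_discriminant.2.1 N
      (P2MW.S_UpperHalfPlane_qCoeff_heckeT.M4cP1W2.coe_heckeDiagMatrix_smul_vadd hN τ)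
  · rw [deltaN_eq_slash]
    exact nice_discriminant.2.2.slash 1
      (P2MW.S_UpperHalfPlane_qCoeff_heckeT.M4cP1W2.heckeDiagMatrix_one_zero N)

/-! ### q-expansions of nice functions -/

lemma qExpansion_mul_of_nice {F G : ℍ → ℂ} (hF : Nice F) (hG : Nice G) :
    qExpansion 1 (F * G) = qExpansion 1 F * qExpansion 1 G :=
  qExpansion_mul (analyticAt_of_nice hF) (analyticAt_of_nice hG)

lemma qExpansion_add_of_nice {F G : ℍ → ℂ} (hF : Nice F) (hG : Nice G) :
    qExpansion 1 (F + G) = qExpansion 1 F + qExpansion 1 G :=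
  qExpansion_add (analyticAt_of_nice hF) (analyticAt_of_nice hG)

lemma qExpansion_sub_of_nice {F G : ℍ → ℂ} (hF : Nice F) (hG : Nice G) :
    qExpansion 1 (F - G) = qExpansion 1 F - qExpansion 1 G :=
  qExpansion_sub (analyticAt_of_nice hF) (analyticAt_of_nice hG)

lemma qExpansion_smul_of_nice {F : ℍ → ℂ} (hF : Nice F) (a : ℂ) :
    qExpansion 1 (a • F) = a • qExpansion 1 F :=
  qExpansion_smul (analyticAt_of_nice hF) a

lemma qExpansion_pow_of_nice {F : ℍ → ℂ} (hF : Nice F) (n : ℕ) :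
    qExpansion 1 (F ^ n) = qExpansion 1 F ^ n := by
  induction n with
  | zero => simpa using qExpansion_one 1
  | succ n ih =>
    rw [pow_succ, pow_succ, qExpansion_mul_of_nice (nice_pow hF n) hF, ih]

lemma qExpansion_const (a : ℂ) : qExpansion 1 (fun _ : ℍ => a) = PowerSeries.C a := by
  have h : (fun _ : ℍ => a) = a • (1 : ℍ → ℂ) := by
    funext z; simp
  rw [h, qExpansion_smul_of_nice nice_one, qExpansion_one]
  ext m
  simp [PowerSeries.coeff_C, PowerSeries.coeff_one]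

/-- A nice function with vanishing `q`-expansion vanishes. -/
lemma eq_zero_of_qExpansion_eq_zero {F : ℍ → ℂ} (hF : Nice F) (h : qExpansion 1 F = 0) :
    F = 0 :=
  (qExpansion_eq_zero_iff one_pos hF.2.1 hF.1 hF.2.2).mp h

/-- Two nice functions with the same `q`-expansion are equal. -/
lemma eq_of_qExpansion_eq {F G : ℍ → ℂ} (hF : Nice F) (hG : Nice G)
    (h : qExpansion 1 F = qExpansion 1 G) : F = G := by
  have h0 : qExpansion 1 (F - G) = 0 := by
    rw [qExpansion_sub_of_nice hF hG, h, sub_self]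
  exact sub_eq_zero.mp (eq_zero_of_qExpansion_eq_zero (nice_sub hF hG) h0)

/-! ### q-expansions of the generators -/

lemma qExpansion_deltaN_coeff (N : ℕ) [NeZero N] (n : ℕ) :
    (qExpansion 1 (deltaN N)).coeff n =
      if N ∣ n then (qExpansion 1 ModularForm.discriminant).coeff (n / N) else 0 := by
  have hN : N ≠ 0 := NeZero.ne N
  have hs : ∀ τ : ℍ, HasSum (fun m : ℕ ↦
      (if N ∣ m then (qExpansion 1 ModularForm.discriminant).coeff (m / N) else 0)
        • Function.Periodic.qParam 1 τ ^ m) (deltaN N τ) := by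
    intro τ
    have h := P2MW.S_UpperHalfPlane_qCoeff_heckeT.M4cP1W2.hasSum_diag hN
      nice_discriminant.2.1 nice_discriminant.1 nice_discriminant.2.2 1 τ
    simp only [sub_self, zpow_zero, one_mul] at h
    convert h using 2 with m
    · split_ifs <;> simp [ModularFormClass.qCoeff]
    · rfl
  exact (qExpansion_coeff_unique (ContinuousMap.mk (deltaN N) (nice_deltaN N).1.continuous)
    one_pos (analyticAt_of_nice (nice_deltaN N)) hs n).symm

/-- Power series fixed by `σ`. -/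
def Fix (σ : ℂ ≃+* ℂ) (A : PowerSeries ℂ) : Prop := PowerSeries.map (σ : ℂ →+* ℂ) A = A

lemma fix_mul {σ : ℂ ≃+* ℂ} {A B : PowerSeries ℂ} (hA : Fix σ A) (hB : Fix σ B) :
    Fix σ (A * B) := by
  unfold Fix at *
  rw [map_mul, hA, hB]

lemma fix_sub {σ : ℂ ≃+* ℂ} {A B : PowerSeries ℂ} (hA : Fix σ A) (hB : Fix σ B) :
    Fix σ (A - B) := by
  unfold Fix at *
  rw [map_sub, hA, hB]

lemma fix_pow {σ : ℂ ≃+* ℂ} {A : PowerSeries ℂ} (hA : Fix σ A) (n : ℕ) :
    Fix σ (A ^ n) := by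
  unfold Fix at *
  rw [map_pow, hA]

lemma fix_qExpansion_E (σ : ℂ ≃+* ℂ) {k : ℕ} (hk : 3 ≤ k) (hk2 : Even k) :
    Fix σ (qExpansion 1 (⇑(E hk))) := by
  ext m
  rw [PowerSeries.coeff_map, EisensteinSeries.E_qExpansion_coeff hk hk2]
  split_ifs
  · simp
  · have h2 : σ (2 : ℂ) = 2 := map_ofNat σ 2
    simp [h2]

lemma fix_qExpansion_E4 (σ : ℂ ≃+* ℂ) : Fix σ (qExpansion 1 (⇑E₄)) :=
  fix_qExpansion_E σ _ ⟨2, rfl⟩

lemma fix_qExpansion_E6 (σ : ℂ ≃+* ℂ) : Fix σ (qExpansion 1 (⇑E₆)) :=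
  fix_qExpansion_E σ _ ⟨3, rfl⟩

lemma discriminant_eq_fun :
    ModularForm.discriminant =
      ((1 / 1728 : ℂ) • ((⇑E₄) ^ 3 - (⇑E₆) ^ 2) : ℍ → ℂ) := by
  funext z
  rw [ModularForm.discriminant_eq_E₄_cube_sub_E₆_sq z]
  simp only [Pi.smul_apply, Pi.sub_apply, Pi.pow_apply, smul_eq_mul]
  ring

lemma qExpansion_discriminant_eq :
    qExpansion 1 ModularForm.discriminant =
      (1 / 1728 : ℂ) • (qExpansion 1 (⇑E₄) ^ 3 - qExpansion 1 (⇑E₆) ^ 2) := by
  rw [discriminant_eq_fun,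
    qExpansion_smul_of_nice (nice_sub (nice_pow nice_E4 3) (nice_pow nice_E6 2)),
    qExpansion_sub_of_nice (nice_pow nice_E4 3) (nice_pow nice_E6 2),
    qExpansion_pow_of_nice nice_E4, qExpansion_pow_of_nice nice_E6]

lemma fix_qExpansion_discriminant (σ : ℂ ≃+* ℂ) :
    Fix σ (qExpansion 1 ModularForm.discriminant) := by
  have h := fix_sub (fix_pow (fix_qExpansion_E4 σ) 3) (fix_pow (fix_qExpansion_E6 σ) 2)
  rw [qExpansion_discriminant_eq]
  unfold Fix at *
  ext m
  have hm := congrArg (PowerSeries.coeff m) h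
  simp only [PowerSeries.coeff_map] at hm
  have h1728 : σ (1 / 1728 : ℂ) = 1 / 1728 := by
    rw [map_div₀, map_one, map_ofNat]
  rw [PowerSeries.coeff_map, PowerSeries.coeff_smul, smul_eq_mul, RingHom.coe_coe, map_mul,
    h1728]
  congr 1

lemma fix_qExpansion_deltaN (σ : ℂ ≃+* ℂ) (N : ℕ) [NeZero N] :
    Fix σ (qExpansion 1 (deltaN N)) := by
  ext m
  have h := congrArg (PowerSeries.coeff (m / N)) (fix_qExpansion_discriminant σ)
  simp only [PowerSeries.coeff_map] at h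
  rw [PowerSeries.coeff_map, qExpansion_deltaN_coeff]
  split_ifs
  · exact h
  · simp

/-! ### Evaluation of polynomials at the generators -/

/-- The three generators `(E₄³, Δ(N·), Δ)` as power series in `q`. -/
def qpt3 (N : ℕ) : Fin 3 → PowerSeries ℂ :=
  ![qExpansion 1 (⇑E₄) ^ 3, qExpansion 1 (deltaN N), qExpansion 1 ModularForm.discriminant]

/-- The function `z ↦ Θ(E₄³, Δ(N·), Δ)(z)`. -/
def evalFun (N : ℕ) (Θ : MvPolynomial (Fin 3) ℂ) : ℍ → ℂ :=
  fun z => MvPolynomial.eval (pt3 N z) Θ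

lemma nice_pt3 (N : ℕ) [NeZero N] (i : Fin 3) :
    Nice (fun z => pt3 N z i) ∧ qExpansion 1 (fun z => pt3 N z i) = qpt3 N i := by
  fin_cases i
  · have h : (fun z => pt3 N z 0) = (⇑E₄) ^ 3 := by
      funext z; simp [pt3]
    simp only [Fin.zero_eta]
    rw [h]
    exact ⟨nice_pow nice_E4 3, by rw [qExpansion_pow_of_nice nice_E4]; simp [qpt3]⟩
  · have h : (fun z => pt3 N z 1) = deltaN N := by
      funext z; simp [pt3]
    simp only [Fin.mk_one]
    rw [h]
    exact ⟨nice_deltaN N, by simp [qpt3]⟩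
  · have h : (fun z => pt3 N z 2) = ModularForm.discriminant := by
      funext z; simp [pt3]
    simp only [Fin.reduceFinMk]
    rw [h]
    exact ⟨nice_discriminant, by simp [qpt3]⟩

lemma fix_qpt3 (σ : ℂ ≃+* ℂ) (N : ℕ) [NeZero N] (i : Fin 3) : Fix σ (qpt3 N i) := by
  fin_cases i
  · simpa [qpt3] using fix_pow (fix_qExpansion_E4 σ) 3
  · simpa [qpt3] using fix_qExpansion_deltaN σ N
  · simpa [qpt3] using fix_qExpansion_discriminant σ

lemma nice_evalFun_and_qExpansion (N : ℕ) [NeZero N] (Θ : MvPolynomial (Fin 3) ℂ) :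
    Nice (evalFun N Θ) ∧ qExpansion 1 (evalFun N Θ) = MvPolynomial.aeval (qpt3 N) Θ := by
  induction Θ using MvPolynomial.induction_on with
  | C a =>
    have h : evalFun N (MvPolynomial.C a) = fun _ => a := by
      funext z; simp [evalFun]
    rw [h]
    refine ⟨nice_const a, ?_⟩
    rw [qExpansion_const, MvPolynomial.aeval_C]
    rfl
  | add p q hp hq =>
    have h : evalFun N (p + q) = evalFun N p + evalFun N q := by
      funext z; simp [evalFun]
    rw [h]
    refine ⟨nice_add hp.1 hq.1, ?_⟩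
    rw [qExpansion_add_of_nice hp.1 hq.1, hp.2, hq.2, map_add]
  | mul_X p i hp =>
    have h : evalFun N (p * MvPolynomial.X i) = evalFun N p * (fun z => pt3 N z i) := by
      funext z; simp [evalFun]
    rw [h]
    refine ⟨nice_mul hp.1 (nice_pt3 N i).1, ?_⟩
    rw [qExpansion_mul_of_nice hp.1 (nice_pt3 N i).1, hp.2, (nice_pt3 N i).2,
      map_mul, MvPolynomial.aeval_X]

lemma nice_evalFun (N : ℕ) [NeZero N] (Θ : MvPolynomial (Fin 3) ℂ) : Nice (evalFun N Θ) :=
  (nice_evalFun_and_qExpansion N Θ).1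

lemma qExpansion_evalFun (N : ℕ) [NeZero N] (Θ : MvPolynomial (Fin 3) ℂ) :
    qExpansion 1 (evalFun N Θ) = MvPolynomial.aeval (qpt3 N) Θ :=
  (nice_evalFun_and_qExpansion N Θ).2

lemma aeval_qpt3_map (σ : ℂ ≃+* ℂ) (N : ℕ) [NeZero N] (Θ : MvPolynomial (Fin 3) ℂ) :
    MvPolynomial.aeval (qpt3 N) (MvPolynomial.map (σ : ℂ →+* ℂ) Θ) =
      PowerSeries.map (σ : ℂ →+* ℂ) (MvPolynomial.aeval (qpt3 N) Θ) := by
  induction Θ using MvPolynomial.induction_on with
  | C a =>
    rw [MvPolynomial.map_C, MvPolynomial.aeval_C, MvPolynomial.aeval_C]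
    change PowerSeries.C _ = PowerSeries.map _ (PowerSeries.C a)
    rw [PowerSeries.map_C]
  | add p q hp hq =>
    simp only [map_add, hp, hq]
  | mul_X p i hp =>
    have hi : PowerSeries.map (σ : ℂ →+* ℂ) (qpt3 N i) = qpt3 N i := fix_qpt3 σ N i
    simp only [map_mul, hp, MvPolynomial.map_X, MvPolynomial.aeval_X, hi]

lemma map_sigma_injective (σ : ℂ ≃+* ℂ) :
    Function.Injective (PowerSeries.map (σ : ℂ →+* ℂ)) := by
  intro A B h
  ext m
  have hm := congrArg (PowerSeries.coeff m) h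
  simp only [PowerSeries.coeff_map] at hm
  exact σ.injective hm

lemma qExpansion_E4_ne_zero : qExpansion 1 (⇑E₄) ≠ 0 := by
  intro h0
  have := EisensteinSeries.E_qExpansion_coeff_zero (k := 4) (by norm_num) ⟨2, rfl⟩
  rw [show qExpansion 1 (⇑(E (k := 4) (by norm_num))) = qExpansion 1 (⇑E₄) from rfl, h0] at this
  simp at this

lemma qExpansion_E6_ne_zero : qExpansion 1 (⇑E₆) ≠ 0 := by
  intro h0
  have := EisensteinSeries.E_qExpansion_coeff_zero (k := 6) (by norm_num) ⟨3, rfl⟩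
  rw [show qExpansion 1 (⇑(E (k := 6) (by norm_num))) = qExpansion 1 (⇑E₆) from rfl, h0] at this
  simp at this

end Rel

open _root_.H23.Rel

/-! ### The two transfer theorems -/

/-- A polynomial relation between `E₄³, Δ(N·), Δ` is preserved by applying `σ ∈ Aut(ℂ)` to the
coefficients (the `q`-expansions of the three functions are rational). -/
theorem rel_transfer (N : ℕ) [NeZero N] (σ : ℂ ≃+* ℂ) (Θ : MvPolynomial (Fin 3) ℂ)
    (h : ∀ z : ℍ, MvPolynomial.eval (pt3 N z) Θ = 0) :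
    ∀ z : ℍ, MvPolynomial.eval (pt3 N z) (MvPolynomial.map (σ : ℂ →+* ℂ) Θ) = 0 := by
  have h0 : evalFun N Θ = 0 := funext h
  have hq : MvPolynomial.aeval (qpt3 N) Θ = 0 := by
    rw [← qExpansion_evalFun, h0, qExpansion_zero]
  have hq' : qExpansion 1 (evalFun N (MvPolynomial.map (σ : ℂ →+* ℂ) Θ)) = 0 := by
    rw [qExpansion_evalFun, aeval_qpt3_map, hq, map_zero]
  have := eq_zero_of_qExpansion_eq_zero (nice_evalFun N _) hq'
  intro z
  exact congrFun this z

/-- Transfer of `q`-expansions: if `f·E₄·E₆·Q = P` and `g·E₄·E₆·σQ = σP` (as functions of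
`(E₄³, Δ(N·), Δ)`), then the `q`-expansion of `g` is `σ` of the `q`-expansion of `f`. -/
theorem qExp_transfer (N : ℕ) [NeZero N] (σ : ℂ ≃+* ℂ) (P Q : MvPolynomial (Fin 3) ℂ)
    (f g : ℍ → ℂ) (hf : Nice f) (hg : Nice g)
    (hQ : ∃ z : ℍ, MvPolynomial.eval (pt3 N z) Q ≠ 0)
    (h1 : ∀ z : ℍ, f z * E₄ z * E₆ z * MvPolynomial.eval (pt3 N z) Q = MvPolynomial.eval (pt3 N z) P)
    (h2 : ∀ z : ℍ, g z * E₄ z * E₆ z * MvPolynomial.eval (pt3 N z) (MvPolynomial.map (σ : ℂ →+* ℂ) Q)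
        = MvPolynomial.eval (pt3 N z) (MvPolynomial.map (σ : ℂ →+* ℂ) P)) :
    ∀ n : ℕ, (qExpansion 1 g).coeff n = σ ((qExpansion 1 f).coeff n) := by
  set σQ := MvPolynomial.map (σ : ℂ →+* ℂ) Q with hσQ
  set σP := MvPolynomial.map (σ : ℂ →+* ℂ) P with hσP
  -- function identities
  have e1 : f * (⇑E₄) * (⇑E₆) * evalFun N Q = evalFun N P := funext h1
  have e2 : g * (⇑E₄) * (⇑E₆) * evalFun N σQ = evalFun N σP := funext h2
  -- power series identities
  have q1 : qExpansion 1 f * qExpansion 1 (⇑E₄) * qExpansion 1 (⇑E₆) *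
      MvPolynomial.aeval (qpt3 N) Q = MvPolynomial.aeval (qpt3 N) P := by
    rw [← qExpansion_evalFun, ← qExpansion_evalFun, ← e1,
      qExpansion_mul_of_nice (nice_mul (nice_mul hf nice_E4) nice_E6) (nice_evalFun N Q),
      qExpansion_mul_of_nice (nice_mul hf nice_E4) nice_E6,
      qExpansion_mul_of_nice hf nice_E4]
  have q2 : qExpansion 1 g * qExpansion 1 (⇑E₄) * qExpansion 1 (⇑E₆) *
      MvPolynomial.aeval (qpt3 N) σQ = MvPolynomial.aeval (qpt3 N) σP := by
    rw [← qExpansion_evalFun, ← qExpansion_evalFun, ← e2,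
      qExpansion_mul_of_nice (nice_mul (nice_mul hg nice_E4) nice_E6) (nice_evalFun N σQ),
      qExpansion_mul_of_nice (nice_mul hg nice_E4) nice_E6,
      qExpansion_mul_of_nice hg nice_E4]
  -- apply σ to q1
  have q1' : PowerSeries.map (σ : ℂ →+* ℂ) (qExpansion 1 f) * qExpansion 1 (⇑E₄) *
      qExpansion 1 (⇑E₆) * MvPolynomial.aeval (qpt3 N) σQ = MvPolynomial.aeval (qpt3 N) σP := by
    have := congrArg (PowerSeries.map (σ : ℂ →+* ℂ)) q1
    rw [map_mul, map_mul, map_mul, (fix_qExpansion_E4 σ : PowerSeries.map _ _ = _),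
      (fix_qExpansion_E6 σ : PowerSeries.map _ _ = _), ← aeval_qpt3_map, ← aeval_qpt3_map] at this
    exact this
  -- nonvanishing
  have hQ0 : MvPolynomial.aeval (qpt3 N) Q ≠ 0 := by
    intro h0
    rw [← qExpansion_evalFun] at h0
    have := eq_zero_of_qExpansion_eq_zero (nice_evalFun N Q) h0
    obtain ⟨z, hz⟩ := hQ
    exact hz (congrFun this z)
  have hσQ0 : MvPolynomial.aeval (qpt3 N) σQ ≠ 0 := by
    rw [hσQ, aeval_qpt3_map]
    intro h0
    exact hQ0 (map_sigma_injective σ (by rw [h0, map_zero]))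
  have key : qExpansion 1 g = PowerSeries.map (σ : ℂ →+* ℂ) (qExpansion 1 f) := by
    have hne : qExpansion 1 (⇑E₄) * qExpansion 1 (⇑E₆) * MvPolynomial.aeval (qpt3 N) σQ ≠ 0 :=
      mul_ne_zero (mul_ne_zero qExpansion_E4_ne_zero qExpansion_E6_ne_zero) hσQ0
    apply mul_right_cancel₀ hne
    rw [← mul_assoc, ← mul_assoc, ← mul_assoc, ← mul_assoc, q2, q1']
  intro n
  rw [key, PowerSeries.coeff_map]
  rfl

end H23
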