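import Fermat.Agent.H23.RevPrelim

/-!
# helper23: the reverse direction of the S23 Galois-stability argument

From algebraic data `(P, Q, R)` satisfying the integrality relation, construct a cusp form
`g` of weight `2` on `Γ₀(N)` with `g · E₄ · E₆ · Q(E₄³, Δ_N, Δ) = P(E₄³, Δ_N, Δ)`.
-/

set_option autoImplicit false

noncomputable section

namespace H23

open UpperHalfPlane ModularForm Filter Topology
open scoped MatrixGroups Manifold

local notation "Δ" => ModularForm.discriminant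

section core

variable (N : ℕ) (a μ : ℕ) (P Q : MvPolynomial (Fin 3) ℂ) (R : ℕ → MvPolynomial (Fin 2) ℂ)

/-- The integrality relation at a point where the denominator does not vanish. -/
theorem rel_of_ne (z : ℍ)
    (hstar : ∑ i ∈ Finset.range (μ + 1),
        MvPolynomial.eval (pt2 z) (R i) * Δ z ^ i *
          (MvPolynomial.eval (pt3 N z) P ^ (12 * N)) ^ (μ - i) *
          ((E₄ z * E₆ z * MvPolynomial.eval (pt3 N z) Q) ^ (12 * N)) ^ i = 0)
    (g : ℂ) (hg : g * (E₄ z * E₆ z * MvPolynomial.eval (pt3 N z) Q) = MvPolynomial.eval (pt3 N z) P)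
    (hD : E₄ z * E₆ z * MvPolynomial.eval (pt3 N z) Q ≠ 0) :
    ∑ i ∈ Finset.range (μ + 1),
      MvPolynomial.eval (pt2 z) (R i) * (g ^ (12 * N) / Δ z) ^ (μ - i) = 0 := by
  have hΔ : Δ z ≠ 0 := discriminant_ne_zero z
  have hA : MvPolynomial.eval (pt3 N z) P ^ (12 * N) =
      (g ^ (12 * N) / Δ z) * Δ z * (E₄ z * E₆ z * MvPolynomial.eval (pt3 N z) Q) ^ (12 * N) := by
    rw [← hg, mul_pow, div_mul_cancel₀ _ hΔ]
  rw [sum_scale μ (fun i => MvPolynomial.eval (pt2 z) (R i)) _ _ (Δ z) _ hA] at hstar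
  have h1 : Δ z ^ μ * ((E₄ z * E₆ z * MvPolynomial.eval (pt3 N z) Q) ^ (12 * N)) ^ μ ≠ 0 :=
    mul_ne_zero (pow_ne_zero _ hΔ) (pow_ne_zero _ (pow_ne_zero _ hD))
  exact (mul_eq_zero.mp hstar).resolve_left h1

/-- Bound coming from the integrality relation. -/
theorem norm_pow_le_of_rel (hR0 : R 0 = 1) (z : ℍ) (g : ℂ)
    (hrel : ∑ i ∈ Finset.range (μ + 1),
      MvPolynomial.eval (pt2 z) (R i) * (g ^ (12 * N) / Δ z) ^ (μ - i) = 0) :
    ‖g‖ ^ (12 * N) ≤ (∑ i ∈ Finset.range (μ + 1), ‖MvPolynomial.eval (pt2 z) (R i)‖) * ‖Δ z‖ := by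
  have hΔ : Δ z ≠ 0 := discriminant_ne_zero z
  have h := norm_le_sum_of_root μ (fun i => MvPolynomial.eval (pt2 z) (R i))
    (by simp [hR0]) _ hrel
  have h2 : ‖g‖ ^ (12 * N) = ‖g ^ (12 * N) / Δ z‖ * ‖Δ z‖ := by
    rw [← norm_mul, div_mul_cancel₀ _ hΔ, norm_pow]
  rw [h2]
  exact mul_le_mul_of_nonneg_right h (norm_nonneg _)

end core

/-- **Reverse direction.** -/
theorem reverse (N : ℕ) [NeZero N]
    (hΔN : MDiff (deltaN N))
    (hΔNinv : ∀ γ ∈ CongruenceSubgroup.Gamma0 N, (deltaN N) ∣[(12 : ℤ)] γ = deltaN N)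
    (a μ : ℕ) (P Q : MvPolynomial (Fin 3) ℂ) (R : ℕ → MvPolynomial (Fin 2) ℂ)
    (hP : P.IsHomogeneous (a + 1)) (hQ : Q.IsHomogeneous a)
    (hR : ∀ i, (R i).IsHomogeneous ((2 * N - 1) * i)) (hR0 : R 0 = 1)
    (hQne : ∃ z : ℍ, MvPolynomial.eval (pt3 N z) Q ≠ 0)
    (hstar : ∀ z : ℍ, ∑ i ∈ Finset.range (μ + 1),
        MvPolynomial.eval (pt2 z) (R i) * Δ z ^ i *
          (MvPolynomial.eval (pt3 N z) P ^ (12 * N)) ^ (μ - i) *
          ((E₄ z * E₆ z * MvPolynomial.eval (pt3 N z) Q) ^ (12 * N)) ^ i = 0) :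
    ∃ g : CuspForm (CongruenceSubgroup.Gamma0 N) 2,
      ∀ z : ℍ, g z * E₄ z * E₆ z * MvPolynomial.eval (pt3 N z) Q
        = MvPolynomial.eval (pt3 N z) P := by
  have hN1 : 1 ≤ N := Nat.one_le_iff_ne_zero.mpr (NeZero.ne N)
  have h12N : 1 ≤ 12 * N := by omega
  have hPf : MDiff (fun z => MvPolynomial.eval (pt3 N z) P) := mdiff_pt3 N hΔN P
  have hQf : MDiff (fun z => MvPolynomial.eval (pt3 N z) Q) := mdiff_pt3 N hΔN Q
  have hD : MDiff (fun z => E₄ z * E₆ z * MvPolynomial.eval (pt3 N z) Q) :=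
    (mdiff_E4.mul mdiff_E6).mul hQf
  have hRf : ∀ i, MDiff (fun z => MvPolynomial.eval (pt2 z) (R i)) := fun i => mdiff_pt2 (R i)
  have hDne : ∃ z : ℍ, (fun z => E₄ z * E₆ z * MvPolynomial.eval (pt3 N z) Q) z ≠ 0 := by
    by_contra hcon
    push Not at hcon
    have h1 : ∀ z, ((E₄ : ℍ → ℂ) * E₆) z = 0 :=
      eq_zero_of_mul_eq_zero (mdiff_E4.mul mdiff_E6) hQf hQne hcon
    have h2 : ∀ z, (E₄ : ℍ → ℂ) z = 0 :=
      eq_zero_of_mul_eq_zero mdiff_E4 mdiff_E6 E6_exists_ne h1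
    obtain ⟨z, hz⟩ := E4_exists_ne
    exact hz (h2 z)
  -- the bound function
  have hB₀c : Continuous (fun z : ℍ =>
      (∑ i ∈ Finset.range (μ + 1), ‖MvPolynomial.eval (pt2 z) (R i)‖) * ‖Δ z‖) := by
    refine Continuous.mul ?_ mdiff_disc.continuous.norm
    exact continuous_finsetSum _ fun i _ => (hRf i).continuous.norm
  have hbd : ∀ z : ℍ, (fun z => E₄ z * E₆ z * MvPolynomial.eval (pt3 N z) Q) z ≠ 0 →
      ‖(fun z => MvPolynomial.eval (pt3 N z) P) z /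
        (fun z => E₄ z * E₆ z * MvPolynomial.eval (pt3 N z) Q) z‖ ≤
      1 + (∑ i ∈ Finset.range (μ + 1), ‖MvPolynomial.eval (pt2 z) (R i)‖) * ‖Δ z‖ := by
    intro z hz
    have hrel := rel_of_ne N μ P Q R z (hstar z) _ (div_mul_cancel₀ _ hz) hz
    have hle := norm_pow_le_of_rel N μ R hR0 z _ hrel
    exact le_one_add_of_pow_le h12N (norm_nonneg _) hle
  obtain ⟨g, hg, hgD⟩ := exists_mdiff_mul_eq hPf hD hDne
    (fun z => 1 + (∑ i ∈ Finset.range (μ + 1), ‖MvPolynomial.eval (pt2 z) (R i)‖) * ‖Δ z‖)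
    (continuous_const.add hB₀c) hbd
  -- the integrality relation for `g` on all of `ℍ`
  have hrelg : ∀ z, ∑ i ∈ Finset.range (μ + 1),
      MvPolynomial.eval (pt2 z) (R i) * (g z ^ (12 * N) / Δ z) ^ (μ - i) = 0 := by
    have hE : MDiff (fun z => ∑ i ∈ Finset.range (μ + 1),
        MvPolynomial.eval (pt2 z) (R i) * (g z ^ (12 * N) / Δ z) ^ (μ - i)) := by
      have hy : MDiff (fun z => g z ^ (12 * N) / Δ z) :=
        (hg.pow (12 * N)).div mdiff_disc discriminant_ne_zero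
      have : ∀ i ∈ Finset.range (μ + 1), MDiff (fun z =>
          MvPolynomial.eval (pt2 z) (R i) * (g z ^ (12 * N) / Δ z) ^ (μ - i)) :=
        fun i _ => (hRf i).mul (hy.pow (μ - i))
      have hs := MDifferentiable.sum this
      have he : (fun z => ∑ i ∈ Finset.range (μ + 1),
          MvPolynomial.eval (pt2 z) (R i) * (g z ^ (12 * N) / Δ z) ^ (μ - i)) =
          ∑ i ∈ Finset.range (μ + 1), fun z =>
            MvPolynomial.eval (pt2 z) (R i) * (g z ^ (12 * N) / Δ z) ^ (μ - i) := by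
        funext z; rw [Finset.sum_apply]
      rw [he]; exact hs
    refine eq_zero_of_mul_eq_zero hE hD hDne fun z => ?_
    by_cases hz : E₄ z * E₆ z * MvPolynomial.eval (pt3 N z) Q = 0
    · simp only [hz, mul_zero]
    · rw [rel_of_ne N μ P Q R z (hstar z) (g z) (hgD z) hz, zero_mul]
  -- the relation for all slashes
  have hslash_rel : ∀ (γ : SL(2, ℤ)) (z : ℍ), ∑ i ∈ Finset.range (μ + 1),
      MvPolynomial.eval (pt2 z) (R i) * ((g ∣[(2 : ℤ)] γ) z ^ (12 * N) / Δ z) ^ (μ - i) = 0 := by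
    intro γ z
    have h0 := hrelg (γ • z)
    have hd : denom γ z ≠ 0 := denom_ne_zero γ z
    have hΔ : Δ z ≠ 0 := discriminant_ne_zero z
    have hgs : g (γ • z) = denom γ z ^ 2 * (g ∣[(2 : ℤ)] γ) z := by
      have := slash_apply_eq g 2 γ z
      exact_mod_cast this
    have hΔs := disc_smul γ z
    have hRi : ∀ i, MvPolynomial.eval (pt2 (γ • z)) (R i) =
        ((denom γ z ^ 12) ^ (2 * N - 1)) ^ i * MvPolynomial.eval (pt2 z) (R i) := by
      intro i
      rw [pt2_smul, eval_smul_of_isHomogeneous (hR i), pow_mul]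
    generalize denom γ z = d at hd hgs hΔs hRi
    have hy : g (γ • z) ^ (12 * N) / Δ (γ • z) =
        (d ^ 12) ^ (2 * N - 1) * ((g ∣[(2 : ℤ)] γ) z ^ (12 * N) / Δ z) := by
      rw [hgs, hΔs, mul_pow]
      have h1 : (d ^ 2) ^ (12 * N) = (d ^ 12) ^ (2 * N - 1) * d ^ 12 := by
        rw [← pow_succ, ← pow_mul, ← pow_mul]
        congr 1
        omega
      rw [h1]
      field_simp
    simp_rw [hRi, hy] at h0
    rw [sum_scale2] at h0
    have hne : ((d ^ 12) ^ (2 * N - 1)) ^ μ ≠ 0 := pow_ne_zero _ (pow_ne_zero _ (pow_ne_zero _ hd))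
    exact (mul_eq_zero.mp h0).resolve_left hne
  have hslash_bd : ∀ (γ : SL(2, ℤ)) (z : ℍ), ‖(g ∣[(2 : ℤ)] γ) z‖ ^ (12 * N) ≤
      (∑ i ∈ Finset.range (μ + 1), ‖MvPolynomial.eval (pt2 z) (R i)‖) * ‖Δ z‖ :=
    fun γ z => norm_pow_le_of_rel N μ R hR0 z _ (hslash_rel γ z)
  -- `B₀ → 0` at `i∞`
  have hB₀zero : Tendsto (fun z : ℍ =>
      (∑ i ∈ Finset.range (μ + 1), ‖MvPolynomial.eval (pt2 z) (R i)‖) * ‖Δ z‖)
      atImInfty (𝓝 0) := by
    have hsum : (fun z : ℍ => ∑ i ∈ Finset.range (μ + 1), ‖MvPolynomial.eval (pt2 z) (R i)‖)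
        =O[atImInfty] (1 : ℍ → ℝ) := by
      have hs := Asymptotics.IsBigO.sum (s := Finset.range (μ + 1)) (l := atImInfty)
        (A := fun i (z : ℍ) => ‖MvPolynomial.eval (pt2 z) (R i)‖) (g := (1 : ℍ → ℝ))
        (fun i _ => (bdd_pt2 (R i)).norm_left)
      have he : (fun z : ℍ => ∑ i ∈ Finset.range (μ + 1), ‖MvPolynomial.eval (pt2 z) (R i)‖) =
          ∑ i ∈ Finset.range (μ + 1), fun z : ℍ => ‖MvPolynomial.eval (pt2 z) (R i)‖ := by
        funext z; rw [Finset.sum_apply]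
      rw [he]; exact hs
    have hΔ0 : Tendsto (fun z : ℍ => ‖Δ z‖) atImInfty (𝓝 0) :=
      tendsto_zero_iff_norm_tendsto_zero.mp discriminant_isZeroAtImInfty
    have hmul := hsum.mul (Asymptotics.isBigO_refl (fun z : ℍ => ‖Δ z‖) atImInfty)
    have : (fun z => (1 : ℍ → ℝ) z * ‖Δ z‖) = fun z => ‖Δ z‖ := by
      funext z; simp
    rw [this] at hmul
    exact hmul.trans_tendsto hΔ0
  have hzero : ∀ γ : SL(2, ℤ), IsZeroAtImInfty (g ∣[(2 : ℤ)] γ) := by
    intro γ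
    rw [IsZeroAtImInfty, ZeroAtFilter, NormedAddGroup.tendsto_nhds_zero]
    intro ε hε
    have hεpow : 0 < ε ^ (12 * N) := pow_pos hε _
    have hev : ∀ᶠ z in atImInfty,
        (∑ i ∈ Finset.range (μ + 1), ‖MvPolynomial.eval (pt2 z) (R i)‖) * ‖Δ z‖
          < ε ^ (12 * N) :=
      (tendsto_order.mp hB₀zero).2 _ hεpow
    filter_upwards [hev] with z hz
    have h1 : ‖(g ∣[(2 : ℤ)] γ) z‖ ^ (12 * N) < ε ^ (12 * N) := (hslash_bd γ z).trans_lt hz
    exact lt_of_pow_lt_pow_left₀ _ hε.le h1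
  -- invariance under `Γ₀(N)`
  have hinv : ∀ γ ∈ CongruenceSubgroup.Gamma0 N, g ∣[(2 : ℤ)] γ = g := by
    intro γ hγ
    have hF : MDiff (fun z => (g ∣[(2 : ℤ)] γ) z - g z) :=
      (hg.slash 2 (γ : GL (Fin 2) ℝ)).sub hg
    have hzero := eq_zero_of_mul_eq_zero hF hD hDne (fun z => by
      have hd : denom γ z ≠ 0 := denom_ne_zero γ z
      have hgs : g (γ • z) = denom γ z ^ 2 * (g ∣[(2 : ℤ)] γ) z := by
        have := slash_apply_eq g 2 γ z
        exact_mod_cast this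
      have h1 := hgD (γ • z)
      have hP' : MvPolynomial.eval (pt3 N (γ • z)) P =
          (denom γ z ^ 12) ^ (a + 1) * MvPolynomial.eval (pt3 N z) P := by
        rw [pt3_smul N γ (hΔNinv γ hγ), eval_smul_of_isHomogeneous hP]
      have hQ' : MvPolynomial.eval (pt3 N (γ • z)) Q =
          (denom γ z ^ 12) ^ a * MvPolynomial.eval (pt3 N z) Q := by
        rw [pt3_smul N γ (hΔNinv γ hγ), eval_smul_of_isHomogeneous hQ]
      rw [hgs, E4_smul, E6_smul, hP', hQ', ← hgD z] at h1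
      generalize denom γ z = d at hd h1
      have h2 : (d ^ 12) ^ (a + 1) * (((g ∣[(2 : ℤ)] γ) z - g z) *
          (E₄ z * E₆ z * MvPolynomial.eval (pt3 N z) Q)) = 0 := by
        linear_combination h1
      exact (mul_eq_zero.mp h2).resolve_left (pow_ne_zero _ (pow_ne_zero _ hd)))
    funext z
    exact sub_eq_zero.mp (hzero z)
  -- package
  refine ⟨{ toFun := g
            slash_action_eq' := ?_
            holo' := hg
            zero_at_cusps' := ?_ }, ?_⟩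
  · rintro γ ⟨γ', hγ', rfl⟩
    exact hinv γ' hγ'
  · intro c hc
    rw [Subgroup.IsArithmetic.isCusp_iff_isCusp_SL2Z] at hc
    rw [OnePoint.isZeroAt_iff_forall_SL2Z hc]
    intro γ _
    exact hzero γ
  · intro z
    have := hgD z
    show g z * E₄ z * E₆ z * MvPolynomial.eval (pt3 N z) Q = MvPolynomial.eval (pt3 N z) P
    rw [← this]; ring

end H23

end
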