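import Fermat.Agent.H23.Rel

/-!
# helper22: the polynomial `Θ` encoding the integrality relation, and its transfer under `Aut(ℂ)`
-/

set_option autoImplicit false

noncomputable section

namespace H23

open UpperHalfPlane ModularForm MvPolynomial

local notation "Δ" => ModularForm.discriminant

/-- The renaming of variables `(X₀, X₁) ↦ (X₀, X₂)`. -/
def thetaRho : Fin 2 → Fin 3 := ![0, 2]

lemma theta_eval_rename (N : ℕ) (z : ℍ) (p : MvPolynomial (Fin 2) ℂ) :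
    eval (pt3 N z) (rename thetaRho p) = eval (pt2 z) p := by
  have h : pt3 N z ∘ thetaRho = pt2 z := by
    funext i
    fin_cases i <;> rfl
  rw [eval_rename, h]

/-- `W = X₀^(4N) (X₀ - 1728 X₂)^(6N)`, which evaluates to `(E₄ E₆)^(12N)`. -/
def thetaW (N : ℕ) : MvPolynomial (Fin 3) ℂ :=
  X 0 ^ (4 * N) * (X 0 - C 1728 * X 2) ^ (6 * N)

lemma eval_thetaW (N : ℕ) (z : ℍ) :
    eval (pt3 N z) (thetaW N) = (E₄ z * E₆ z) ^ (12 * N) := by
  have h0 : pt3 N z 0 = E₄ z ^ 3 := rfl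
  have h2 : pt3 N z 2 = Δ z := rfl
  have hΔ : (1728 : ℂ) * Δ z = E₄ z ^ 3 - E₆ z ^ 2 := by
    rw [ModularForm.discriminant_eq_E₄_cube_sub_E₆_sq z]
    ring
  simp only [thetaW, map_mul, map_pow, map_sub, eval_X, eval_C, h0, h2, hΔ]
  have : E₄ z ^ 3 - (E₄ z ^ 3 - E₆ z ^ 2) = E₆ z ^ 2 := by ring
  rw [this]
  ring

lemma map_thetaW (σ : ℂ ≃+* ℂ) (N : ℕ) :
    MvPolynomial.map (σ : ℂ →+* ℂ) (thetaW N) = thetaW N := by
  have h : σ 1728 = 1728 := map_ofNat σ 1728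
  simp [thetaW, h]

/-- The polynomial `Θ`. -/
def thetaPoly (N μ : ℕ) (P Q : MvPolynomial (Fin 3) ℂ) (R : ℕ → MvPolynomial (Fin 2) ℂ) :
    MvPolynomial (Fin 3) ℂ :=
  ∑ i ∈ Finset.range (μ + 1),
    rename thetaRho (R i) * X 2 ^ i * (P ^ (12 * N)) ^ (μ - i) * (thetaW N * Q ^ (12 * N)) ^ i

lemma eval_thetaPoly (N μ : ℕ) (P Q : MvPolynomial (Fin 3) ℂ) (R : ℕ → MvPolynomial (Fin 2) ℂ)
    (z : ℍ) :
    eval (pt3 N z) (thetaPoly N μ P Q R) =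
      ∑ i ∈ Finset.range (μ + 1),
        eval (pt2 z) (R i) * Δ z ^ i * (eval (pt3 N z) P ^ (12 * N)) ^ (μ - i) *
          ((E₄ z * E₆ z * eval (pt3 N z) Q) ^ (12 * N)) ^ i := by
  have h2 : pt3 N z 2 = Δ z := rfl
  simp only [thetaPoly, map_sum, map_mul, map_pow, theta_eval_rename, eval_X, h2, eval_thetaW]
  refine Finset.sum_congr rfl fun i _ => ?_
  rw [← mul_pow (E₄ z * E₆ z) (eval (pt3 N z) Q) (12 * N)]

lemma map_thetaPoly (σ : ℂ ≃+* ℂ) (N μ : ℕ) (P Q : MvPolynomial (Fin 3) ℂ)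
    (R : ℕ → MvPolynomial (Fin 2) ℂ) :
    MvPolynomial.map (σ : ℂ →+* ℂ) (thetaPoly N μ P Q R) =
      thetaPoly N μ (MvPolynomial.map (σ : ℂ →+* ℂ) P) (MvPolynomial.map (σ : ℂ →+* ℂ) Q)
        (fun i => MvPolynomial.map (σ : ℂ →+* ℂ) (R i)) := by
  simp only [thetaPoly, map_sum, map_mul, map_pow, map_thetaW, MvPolynomial.map_rename,
    MvPolynomial.map_X]

/-- **Transfer of the integrality relation** under `σ ∈ Aut(ℂ)`. -/
theorem hstar_transfer (N : ℕ) [NeZero N] (σ : ℂ ≃+* ℂ) (μ : ℕ)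
    (P Q : MvPolynomial (Fin 3) ℂ) (R : ℕ → MvPolynomial (Fin 2) ℂ)
    (hstar : ∀ z : ℍ, ∑ i ∈ Finset.range (μ + 1),
        MvPolynomial.eval (pt2 z) (R i) * Δ z ^ i *
          (MvPolynomial.eval (pt3 N z) P ^ (12 * N)) ^ (μ - i) *
          ((E₄ z * E₆ z * MvPolynomial.eval (pt3 N z) Q) ^ (12 * N)) ^ i = 0) :
    ∀ z : ℍ, ∑ i ∈ Finset.range (μ + 1),
        MvPolynomial.eval (pt2 z) (MvPolynomial.map (σ : ℂ →+* ℂ) (R i)) * Δ z ^ i *
          (MvPolynomial.eval (pt3 N z) (MvPolynomial.map (σ : ℂ →+* ℂ) P) ^ (12 * N)) ^ (μ - i) *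
          ((E₄ z * E₆ z * MvPolynomial.eval (pt3 N z) (MvPolynomial.map (σ : ℂ →+* ℂ) Q)) ^
            (12 * N)) ^ i = 0 := by
  intro z
  have h := rel_transfer N σ (thetaPoly N μ P Q R)
    (fun z => by rw [eval_thetaPoly]; exact hstar z) z
  rw [map_thetaPoly, eval_thetaPoly] at h
  exact h

/-- Non-vanishing transfers as well. -/
theorem exists_ne_transfer (N : ℕ) [NeZero N] (σ : ℂ ≃+* ℂ) (Q : MvPolynomial (Fin 3) ℂ)
    (hQ : ∃ z : ℍ, MvPolynomial.eval (pt3 N z) Q ≠ 0) :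
    ∃ z : ℍ, MvPolynomial.eval (pt3 N z) (MvPolynomial.map (σ : ℂ →+* ℂ) Q) ≠ 0 := by
  by_contra hcon
  push Not at hcon
  have h := rel_transfer N σ.symm (MvPolynomial.map (σ : ℂ →+* ℂ) Q) hcon
  have hid : MvPolynomial.map (σ.symm : ℂ →+* ℂ) (MvPolynomial.map (σ : ℂ →+* ℂ) Q) = Q := by
    rw [MvPolynomial.map_map]
    have : ((σ.symm : ℂ →+* ℂ).comp (σ : ℂ →+* ℂ)) = RingHom.id ℂ := by
      ext x
      simp
    rw [this, MvPolynomial.map_id]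
  obtain ⟨z, hz⟩ := hQ
  rw [hid] at h
  exact hz (h z)

end H23

end
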