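import Fermat.Agent.H23.Forward
import Fermat.Agent.H23.Rel
import Fermat.Agent.H23.Theta
import Fermat.Agent.H23.Reverse
import Fermat.Agent.H23.DeltaN
import Fermat.Prelude.Thm_CongruenceSubgroup_one_mem_strictPeriods_Gamma0

/-!
# helper23: Galois stability of `S₂(Γ₀(N))` (assembly)

For every field automorphism `σ` of `ℂ` and every cusp form `f` of weight `2` on `Γ₀(N)` there is
a cusp form `g` of weight `2` on `Γ₀(N)` whose `q`-expansion is `σ` applied to that of `f`.

Ingredients (all in `Fermat/Agent/H23/`):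
* `forward_R1`, `forward_R2` (helper20): `f · E₄ · E₆ · Q = P` and an integrality relation for
  `f ^ (12 N)` over level one, with `P, Q, R i` polynomials in `(E₄³, Δ(N·), Δ)`;
* `hstar_transfer`, `exists_ne_transfer` (helper22), `rel_transfer`, `qExp_transfer` (helper15):
  polynomial relations between `E₄³, Δ(N·), Δ` are stable under `σ`;
* `reverse` (helper23): the `σ`-twisted relations define a cusp form on `Γ₀(N)`;
* `mdifferentiable_deltaN`, `deltaN_slash_of_mem_Gamma0` (helper12).
-/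

set_option autoImplicit false

noncomputable section

namespace H23

open UpperHalfPlane ModularForm
open scoped MatrixGroups Manifold

theorem nice_cuspForm (N : ℕ) [NeZero N] (f : CuspForm (CongruenceSubgroup.Gamma0 N) 2) :
    Nice (⇑f) := by
  refine ⟨CuspFormClass.holo f, ?_, (CuspFormClass.zero_at_infty f).isBoundedAtImInfty⟩
  have h := SlashInvariantFormClass.periodic_comp_ofComplex f
    (CongruenceSubgroup.one_mem_strictPeriods_Gamma0 N)
  simpa using h

theorem hstar_of_forward (N μ : ℕ) (P Q : MvPolynomial (Fin 3) ℂ)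
    (R : ℕ → MvPolynomial (Fin 2) ℂ) (f : ℍ → ℂ)
    (h1 : ∀ z : ℍ, f z * E₄ z * E₆ z * MvPolynomial.eval (pt3 N z) Q =
        MvPolynomial.eval (pt3 N z) P)
    (h2 : ∀ z : ℍ, ∑ i ∈ Finset.range (μ + 1),
        MvPolynomial.eval (pt2 z) (R i) * ModularForm.discriminant z ^ i *
          (f z ^ (12 * N)) ^ (μ - i) = 0) :
    ∀ z : ℍ, ∑ i ∈ Finset.range (μ + 1),
        MvPolynomial.eval (pt2 z) (R i) * ModularForm.discriminant z ^ i *
          (MvPolynomial.eval (pt3 N z) P ^ (12 * N)) ^ (μ - i) *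
          ((E₄ z * E₆ z * MvPolynomial.eval (pt3 N z) Q) ^ (12 * N)) ^ i = 0 := by
  intro z
  have key : ∀ i ∈ Finset.range (μ + 1),
      MvPolynomial.eval (pt2 z) (R i) * ModularForm.discriminant z ^ i *
          (MvPolynomial.eval (pt3 N z) P ^ (12 * N)) ^ (μ - i) *
          ((E₄ z * E₆ z * MvPolynomial.eval (pt3 N z) Q) ^ (12 * N)) ^ i =
        ((E₄ z * E₆ z * MvPolynomial.eval (pt3 N z) Q) ^ (12 * N)) ^ μ *
          (MvPolynomial.eval (pt2 z) (R i) * ModularForm.discriminant z ^ i *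
            (f z ^ (12 * N)) ^ (μ - i)) := by
    intro i hi
    have hi' : i ≤ μ := by
      have := Finset.mem_range.mp hi
      omega
    have hP : MvPolynomial.eval (pt3 N z) P =
        f z * (E₄ z * E₆ z * MvPolynomial.eval (pt3 N z) Q) := by
      rw [← h1 z]; ring
    generalize E₄ z * E₆ z * MvPolynomial.eval (pt3 N z) Q = D at hP ⊢
    rw [hP]
    have hμ : μ = (μ - i) + i := by omega
    conv_rhs => rw [hμ, pow_add]
    rw [mul_pow, mul_pow]
    have : μ - i + i - i = μ - i := by omega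
    rw [this]
    ring
  rw [Finset.sum_congr rfl key, ← Finset.mul_sum, h2 z, mul_zero]

/-- **Galois stability of `S₂(Γ₀(N))`.** -/
theorem galois_stable (N : ℕ) [NeZero N] (σ : ℂ ≃+* ℂ)
    (f : CuspForm (CongruenceSubgroup.Gamma0 N) 2) :
    ∃ g : CuspForm (CongruenceSubgroup.Gamma0 N) 2,
      ∀ n : ℕ, ModularFormClass.qCoeff g n = σ (ModularFormClass.qCoeff f n) := by
  obtain ⟨a, P, Q, hP, hQ, hQne, h1⟩ := forward_R1 N f
  obtain ⟨μ, R, hR, hR0, h2⟩ := forward_R2 N f
  have hstar := hstar_of_forward N μ P Q R f h1 h2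
  have hstarσ := hstar_transfer N σ μ P Q R hstar
  have hQneσ := exists_ne_transfer N σ Q hQne
  obtain ⟨g, hg⟩ := reverse N (mdifferentiable_deltaN N) (deltaN_slash_of_mem_Gamma0 N) a μ
    (MvPolynomial.map (σ : ℂ →+* ℂ) P) (MvPolynomial.map (σ : ℂ →+* ℂ) Q)
    (fun i => MvPolynomial.map (σ : ℂ →+* ℂ) (R i))
    (hP.map _) (hQ.map _) (fun i => (hR i).map _) (by simp [hR0]) hQneσ hstarσ
  refine ⟨g, ?_⟩
  exact qExp_transfer N σ P Q f g (nice_cuspForm N f) (nice_cuspForm N g) hQne h1 hg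

end H23

end
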