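import Fermat.Agent.H23.Basic

/-!
# helper23: identity principle and removable singularities on the upper half plane
-/

set_option autoImplicit false

noncomputable section

namespace H23

open UpperHalfPlane ModularForm Filter Topology
open scoped MatrixGroups Manifold

theorem isPreconnected_uhpSet : IsPreconnected {z : ℂ | 0 < z.im} :=
  Convex.isPreconnected (convex_halfSpace_im_gt 0)

/-- Identity principle: if `F * D = 0` pointwise with `D ≢ 0`, then `F = 0`. -/
theorem eq_zero_of_mul_eq_zero {F D : ℍ → ℂ} (hF : MDiff F) (hD : MDiff D)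
    (hDne : ∃ z, D z ≠ 0) (h : ∀ z, F z * D z = 0) : ∀ z, F z = 0 := by
  obtain ⟨z₁, hz₁⟩ := hDne
  have hΩo : IsOpen {z : ℂ | 0 < z.im} := isOpen_upperHalfPlaneSet
  have hF' : DifferentiableOn ℂ (F ∘ ofComplex) {z : ℂ | 0 < z.im} := mdifferentiable_iff.mp hF
  have hD' : DifferentiableOn ℂ (D ∘ ofComplex) {z : ℂ | 0 < z.im} := mdifferentiable_iff.mp hD
  have hFa : AnalyticOnNhd ℂ (F ∘ ofComplex) {z : ℂ | 0 < z.im} := hF'.analyticOnNhd hΩo
  have hz₁Ω : (z₁ : ℂ) ∈ {z : ℂ | 0 < z.im} := z₁.im_pos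
  have hDc : ContinuousAt (D ∘ ofComplex) (z₁ : ℂ) :=
    (hD'.differentiableAt (hΩo.mem_nhds hz₁Ω)).continuousAt
  have hDz₁ : (D ∘ ofComplex) (z₁ : ℂ) ≠ 0 := by
    simpa [Function.comp_apply, ofComplex_apply] using hz₁
  have hev : ∀ᶠ w in 𝓝 (z₁ : ℂ), (F ∘ ofComplex) w = 0 := by
    filter_upwards [hDc.eventually_ne hDz₁] with w hw
    have := h (ofComplex w)
    rcases mul_eq_zero.mp this with h0 | h0
    · exact h0
    · exact absurd h0 hw
  have hzero := hFa.eqOn_zero_of_preconnected_of_eventuallyEq_zero isPreconnected_uhpSet hz₁Ω hev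
  intro z
  have := hzero z.im_pos
  simpa [Function.comp_apply, ofComplex_apply] using this

/-- Removable singularities: a locally bounded quotient of holomorphic functions on `ℍ`
extends to a holomorphic function. -/
theorem exists_mdiff_mul_eq {P D : ℍ → ℂ} (hP : MDiff P) (hD : MDiff D)
    (hDne : ∃ z, D z ≠ 0) (B : ℍ → ℝ) (hB : Continuous B)
    (hbd : ∀ z, D z ≠ 0 → ‖P z / D z‖ ≤ B z) :
    ∃ g : ℍ → ℂ, MDiff g ∧ ∀ z, g z * D z = P z := by
  classical
  have hΩo : IsOpen {z : ℂ | 0 < z.im} := isOpen_upperHalfPlaneSet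
  have hP' : DifferentiableOn ℂ (P ∘ ofComplex) {z : ℂ | 0 < z.im} := mdifferentiable_iff.mp hP
  have hD' : DifferentiableOn ℂ (D ∘ ofComplex) {z : ℂ | 0 < z.im} := mdifferentiable_iff.mp hD
  have hDa : AnalyticOnNhd ℂ (D ∘ ofComplex) {z : ℂ | 0 < z.im} := hD'.analyticOnNhd hΩo
  set G₀ : ℂ → ℂ := fun w => (P ∘ ofComplex) w / (D ∘ ofComplex) w with hG₀
  set g' : ℂ → ℂ := fun w => limUnder (𝓝[≠] w) G₀ with hg'
  -- `D` is not identically zero near any point
  have h1 : ∀ w₀ ∈ {z : ℂ | 0 < z.im}, ∀ᶠ w in 𝓝[≠] w₀, (D ∘ ofComplex) w ≠ 0 := by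
    intro w₀ hw₀
    rcases (hDa w₀ hw₀).eventually_eq_zero_or_eventually_ne_zero with h0 | h0
    · exfalso
      obtain ⟨z₁, hz₁⟩ := hDne
      have := hDa.eqOn_zero_of_preconnected_of_eventuallyEq_zero isPreconnected_uhpSet hw₀ h0
        z₁.im_pos
      exact hz₁ (by simpa [Function.comp_apply, ofComplex_apply] using this)
    · exact h0
  have hG₀diff : ∀ w ∈ {z : ℂ | 0 < z.im}, (D ∘ ofComplex) w ≠ 0 → DifferentiableAt ℂ G₀ w := by
    intro w hw hne
    exact (hP'.differentiableAt (hΩo.mem_nhds hw)).div (hD'.differentiableAt (hΩo.mem_nhds hw)) hne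
  have h2 : ∀ w ∈ {z : ℂ | 0 < z.im}, (D ∘ ofComplex) w ≠ 0 → g' w = G₀ w := by
    intro w hw hne
    exact ((hG₀diff w hw hne).continuousAt.tendsto.mono_left nhdsWithin_le_nhds).limUnder_eq
  have h3 : ∀ w₀ ∈ {z : ℂ | 0 < z.im}, DifferentiableAt ℂ g' w₀ := by
    intro w₀ hw₀
    have hBc : ContinuousAt (B ∘ ofComplex) w₀ :=
      hB.continuousAt.comp (mdifferentiableAt_ofComplex hw₀).continuousAt
    have hBev : ∀ᶠ w in 𝓝 w₀, (B ∘ ofComplex) w < (B ∘ ofComplex) w₀ + 1 :=
      hBc.eventually_lt continuousAt_const (by simp)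
    have hev : ∀ᶠ w in 𝓝 w₀, w ∈ {z : ℂ | 0 < z.im} ∧
        (w ≠ w₀ → (D ∘ ofComplex) w ≠ 0) ∧ (B ∘ ofComplex) w < (B ∘ ofComplex) w₀ + 1 := by
      have h1' := eventually_nhdsWithin_iff.mp (h1 w₀ hw₀)
      filter_upwards [hΩo.mem_nhds hw₀, h1', hBev] with w hwΩ hwD hwB
      exact ⟨hwΩ, fun hne => hwD hne, hwB⟩
    obtain ⟨t, ht, hto, hw₀t⟩ := eventually_nhds_iff.mp hev
    have hdiff : DifferentiableOn ℂ G₀ (t \ {w₀}) := by
      intro w hw
      exact (hG₀diff w (ht w hw.1).1 ((ht w hw.1).2.1 hw.2)).differentiableWithinAt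
    have hbdd : BddAbove (norm ∘ G₀ '' (t \ {w₀})) := by
      refine ⟨(B ∘ ofComplex) w₀ + 1, ?_⟩
      rintro _ ⟨w, hw, rfl⟩
      have hwΩ := (ht w hw.1).1
      have hne := (ht w hw.1).2.1 hw.2
      have hlt := (ht w hw.1).2.2
      have := hbd (ofComplex w) hne
      simp only [Function.comp_apply] at hlt ⊢
      exact (this.trans hlt.le)
    have hupd := Complex.differentiableOn_update_limUnder_of_bddAbove (hto.mem_nhds hw₀t) hdiff hbdd
    have heq : ∀ w ∈ t, g' w = Function.update G₀ w₀ (limUnder (𝓝[≠] w₀) G₀) w := by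
      intro w hw
      by_cases hww : w = w₀
      · subst hww; simp [hg']
      · rw [Function.update_of_ne hww]
        exact h2 w (ht w hw).1 ((ht w hw).2.1 hww)
    have : g' =ᶠ[𝓝 w₀] Function.update G₀ w₀ (limUnder (𝓝[≠] w₀) G₀) := by
      filter_upwards [hto.mem_nhds hw₀t] with w hw using heq w hw
    exact ((hupd.differentiableAt (hto.mem_nhds hw₀t)).congr_of_eventuallyEq this)
  refine ⟨fun z => g' (z : ℂ), ?_, ?_⟩
  · rw [mdifferentiable_iff]
    intro w hw
    have : (fun z : ℍ => g' (z : ℂ)) ∘ ofComplex =ᶠ[𝓝 w] g' := by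
      filter_upwards [hΩo.mem_nhds hw] with w' hw'
      simp [Function.comp_apply, ofComplex_apply_of_im_pos hw']
    exact ((h3 w hw).congr_of_eventuallyEq this).differentiableWithinAt
  · -- the identity `g * D = P`
    have hgm : MDiff (fun z : ℍ => g' (z : ℂ)) := by
      rw [mdifferentiable_iff]
      intro w hw
      have : (fun z : ℍ => g' (z : ℂ)) ∘ ofComplex =ᶠ[𝓝 w] g' := by
        filter_upwards [hΩo.mem_nhds hw] with w' hw'
        simp [Function.comp_apply, ofComplex_apply_of_im_pos hw']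
      exact ((h3 w hw).congr_of_eventuallyEq this).differentiableWithinAt
    have hF : MDiff (fun z : ℍ => g' (z : ℂ) * D z - P z) := (hgm.mul hD).sub hP
    have hzero := eq_zero_of_mul_eq_zero hF hD hDne (fun z => by
      by_cases hz : D z = 0
      · simp [hz]
      · have hz' : (D ∘ ofComplex) (z : ℂ) ≠ 0 := by
          simpa [Function.comp_apply, ofComplex_apply] using hz
        have := h2 (z : ℂ) z.im_pos hz'
        simp only [hG₀, Function.comp_apply, ofComplex_apply] at this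
        rw [this, div_mul_cancel₀ _ hz, sub_self, zero_mul])
    intro z
    exact sub_eq_zero.mp (hzero z)

end H23

end
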