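import Fermat.Agent.H23.Removable

/-!
# helper23: preliminaries for the reverse direction of the S23 Galois-stability argument

From algebraic data `(P, Q, R)` satisfying the integrality relation, construct a cusp form
`g` of weight `2` on `Γ₀(N)` with `g · E₄ · E₆ · Q(E₄³, Δ_N, Δ) = P(E₄³, Δ_N, Δ)`.
-/

set_option autoImplicit false

noncomputable section

namespace H23

open UpperHalfPlane ModularForm Filter Topology
open scoped MatrixGroups Manifold

local notation "Δ" => ModularForm.discriminant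

/-- Transformation law from slash invariance. -/
theorem apply_smul_of_slash_eq {f : ℍ → ℂ} {k : ℤ} {γ : SL(2, ℤ)} (h : f ∣[k] γ = f) (z : ℍ) :
    f (γ • z) = denom γ z ^ k * f z := by
  have h1 := congrFun h z
  rw [SL_slash_apply] at h1
  have hd : denom γ z ^ k ≠ 0 := zpow_ne_zero k (denom_ne_zero γ z)
  rw [zpow_neg] at h1
  rw [← h1, mul_comm, mul_assoc, inv_mul_cancel₀ hd, mul_one]

theorem slash_apply_eq (f : ℍ → ℂ) (k : ℤ) (γ : SL(2, ℤ)) (z : ℍ) :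
    f (γ • z) = denom γ z ^ k * (f ∣[k] γ) z := by
  rw [SL_slash_apply]
  have hd : denom γ z ^ k ≠ 0 := zpow_ne_zero k (denom_ne_zero γ z)
  rw [zpow_neg, mul_comm, mul_assoc, inv_mul_cancel₀ hd, mul_one]

theorem E4_slash (γ : SL(2, ℤ)) : (E₄ : ℍ → ℂ) ∣[(4 : ℤ)] γ = E₄ := by
  have hγ : (γ : GL (Fin 2) ℝ) ∈ 𝒮ℒ := ⟨γ, rfl⟩
  simpa [SL_slash] using SlashInvariantFormClass.slash_action_eq E₄ _ hγ

theorem E6_slash (γ : SL(2, ℤ)) : (E₆ : ℍ → ℂ) ∣[(6 : ℤ)] γ = E₆ := by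
  have hγ : (γ : GL (Fin 2) ℝ) ∈ 𝒮ℒ := ⟨γ, rfl⟩
  simpa [SL_slash] using SlashInvariantFormClass.slash_action_eq E₆ _ hγ

theorem disc_slash (γ : SL(2, ℤ)) : (Δ : ℍ → ℂ) ∣[(12 : ℤ)] γ = Δ := by
  have hγ : (γ : GL (Fin 2) ℝ) ∈ 𝒮ℒ := ⟨γ, rfl⟩
  simpa [SL_slash] using SlashInvariantFormClass.slash_action_eq CuspForm.discriminant _ hγ

theorem E4_smul (γ : SL(2, ℤ)) (z : ℍ) : E₄ (γ • z) = denom γ z ^ 4 * E₄ z := by
  have := apply_smul_of_slash_eq (E4_slash γ) z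
  exact_mod_cast this

theorem E6_smul (γ : SL(2, ℤ)) (z : ℍ) : E₆ (γ • z) = denom γ z ^ 6 * E₆ z := by
  have := apply_smul_of_slash_eq (E6_slash γ) z
  exact_mod_cast this

theorem disc_smul (γ : SL(2, ℤ)) (z : ℍ) : Δ (γ • z) = denom γ z ^ 12 * Δ z := by
  have := apply_smul_of_slash_eq (disc_slash γ) z
  exact_mod_cast this

theorem pt2_smul (γ : SL(2, ℤ)) (z : ℍ) :
    pt2 (γ • z) = fun i => denom γ z ^ 12 * pt2 z i := by
  funext i
  fin_cases i
  · show E₄ (γ • z) ^ 3 = denom γ z ^ 12 * E₄ z ^ 3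
    rw [E4_smul]; ring
  · show Δ (γ • z) = denom γ z ^ 12 * Δ z
    rw [disc_smul]

theorem pt3_smul (N : ℕ) (γ : SL(2, ℤ))
    (hγ : (deltaN N) ∣[(12 : ℤ)] γ = deltaN N) (z : ℍ) :
    pt3 N (γ • z) = fun i => denom γ z ^ 12 * pt3 N z i := by
  have hN := apply_smul_of_slash_eq hγ z
  funext i
  fin_cases i
  · show E₄ (γ • z) ^ 3 = denom γ z ^ 12 * E₄ z ^ 3
    rw [E4_smul]; ring
  · show deltaN N (γ • z) = denom γ z ^ 12 * deltaN N z
    exact_mod_cast hN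
  · show Δ (γ • z) = denom γ z ^ 12 * Δ z
    rw [disc_smul]

theorem pt2_eq (z : ℍ) :
    pt2 z = fun i => (![fun z => E₄ z ^ 3, fun z => Δ z] : Fin 2 → ℍ → ℂ) i z := by
  funext i; fin_cases i <;> rfl

theorem pt3_eq (N : ℕ) (z : ℍ) :
    pt3 N z = fun i => (![fun z => E₄ z ^ 3, deltaN N, fun z => Δ z] : Fin 3 → ℍ → ℂ) i z := by
  funext i; fin_cases i <;> rfl

theorem mdiff_E4 : MDiff (E₄ : ℍ → ℂ) := ModularFormClass.holo E₄
theorem mdiff_E6 : MDiff (E₆ : ℍ → ℂ) := ModularFormClass.holo E₆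
theorem mdiff_disc : MDiff (Δ : ℍ → ℂ) := CuspFormClass.holo CuspForm.discriminant

theorem mdiff_pt2 (R : MvPolynomial (Fin 2) ℂ) :
    MDiff (fun z => MvPolynomial.eval (pt2 z) R) := by
  have := mdiff_eval (ι := Fin 2) (fun i => ![fun z => E₄ z ^ 3, fun z => Δ z] i)
    (by intro i; fin_cases i
        · exact mdiff_E4.pow 3
        · exact mdiff_disc) R
  have he : (fun z => MvPolynomial.eval (pt2 z) R) = (fun z => MvPolynomial.eval
      (fun i => ![fun z => E₄ z ^ 3, fun z => Δ z] i z) R) := by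
    funext z
    rw [show pt2 z = _ from pt2_eq z]
  rw [he]; exact this

theorem mdiff_pt3 (N : ℕ) (hΔN : MDiff (deltaN N)) (P : MvPolynomial (Fin 3) ℂ) :
    MDiff (fun z => MvPolynomial.eval (pt3 N z) P) := by
  have := mdiff_eval (ι := Fin 3) (fun i => ![fun z => E₄ z ^ 3, deltaN N, fun z => Δ z] i)
    (by intro i; fin_cases i
        · exact mdiff_E4.pow 3
        · exact hΔN
        · exact mdiff_disc) P
  have he : (fun z => MvPolynomial.eval (pt3 N z) P) = (fun z => MvPolynomial.eval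
      (fun i => ![fun z => E₄ z ^ 3, deltaN N, fun z => Δ z] i z) P) := by
    funext z
    rw [show pt3 N z = _ from pt3_eq N z]
  rw [he]; exact this

theorem bdd_E4 : IsBoundedAtImInfty (E₄ : ℍ → ℂ) := ModularFormClass.bdd_at_infty E₄
theorem bdd_disc : IsBoundedAtImInfty (Δ : ℍ → ℂ) :=
  ModularFormClass.bdd_at_infty (CuspForm.discriminant : ModularForm 𝒮ℒ 12)

theorem bdd_pt2 (R : MvPolynomial (Fin 2) ℂ) :
    IsBoundedAtImInfty (fun z => MvPolynomial.eval (pt2 z) R) := by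
  have := bdd_eval (ι := Fin 2) (fun i => ![fun z => E₄ z ^ 3, fun z => Δ z] i)
    (by intro i; fin_cases i
        · show IsBoundedAtImInfty (fun z => E₄ z ^ 3)
          have h3 : (fun z => E₄ z ^ 3) = (E₄ : ℍ → ℂ) * E₄ * E₄ := by
            funext z; simp only [Pi.mul_apply]; ring
          rw [h3]
          exact (bdd_E4.mul bdd_E4).mul bdd_E4
        · exact bdd_disc) R
  have he : (fun z => MvPolynomial.eval (pt2 z) R) = (fun z => MvPolynomial.eval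
      (fun i => ![fun z => E₄ z ^ 3, fun z => Δ z] i z) R) := by
    funext z
    rw [show pt2 z = _ from pt2_eq z]
  rw [he]; exact this

end H23

end

noncomputable section

namespace H23

open UpperHalfPlane ModularForm Filter Topology
open scoped MatrixGroups Manifold

theorem sum_scale (μ : ℕ) (c : ℕ → ℂ) (A E δ Y : ℂ) (hA : A = Y * δ * E) :
    ∑ i ∈ Finset.range (μ + 1), c i * δ ^ i * A ^ (μ - i) * E ^ i =
      δ ^ μ * E ^ μ * ∑ i ∈ Finset.range (μ + 1), c i * Y ^ (μ - i) := by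
  rw [Finset.mul_sum]
  refine Finset.sum_congr rfl fun i hi => ?_
  have hi' : i ≤ μ := Nat.lt_succ_iff.mp (Finset.mem_range.mp hi)
  obtain ⟨k, rfl⟩ := Nat.exists_eq_add_of_le hi'
  rw [Nat.add_sub_cancel_left, hA]
  ring

theorem sum_scale2 (μ : ℕ) (c : ℕ → ℂ) (Λ Y : ℂ) :
    ∑ i ∈ Finset.range (μ + 1), (Λ ^ i * c i) * (Λ * Y) ^ (μ - i) =
      Λ ^ μ * ∑ i ∈ Finset.range (μ + 1), c i * Y ^ (μ - i) := by
  rw [Finset.mul_sum]
  refine Finset.sum_congr rfl fun i hi => ?_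
  have hi' : i ≤ μ := Nat.lt_succ_iff.mp (Finset.mem_range.mp hi)
  obtain ⟨k, rfl⟩ := Nat.exists_eq_add_of_le hi'
  rw [Nat.add_sub_cancel_left]
  ring

theorem E4_exists_ne : ∃ z : ℍ, E₄ z ≠ 0 := by
  have h : (E₄ : ModularForm 𝒮ℒ 4) ≠ 0 := EisensteinSeries.E_ne_zero (by norm_num) ⟨2, rfl⟩
  exact DFunLike.ne_iff.mp h

theorem E6_exists_ne : ∃ z : ℍ, E₆ z ≠ 0 := by
  have h : (E₆ : ModularForm 𝒮ℒ 6) ≠ 0 := EisensteinSeries.E_ne_zero (by norm_num) ⟨3, rfl⟩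
  exact DFunLike.ne_iff.mp h

/-- if `x ^ n ≤ M` with `1 ≤ n` then `x ≤ 1 + M` (for `0 ≤ x`). -/
theorem le_one_add_of_pow_le {x M : ℝ} {n : ℕ} (hn : 1 ≤ n) (hx : 0 ≤ x) (h : x ^ n ≤ M) :
    x ≤ 1 + M := by
  rcases le_or_gt x 1 with h1 | h1
  · have : 0 ≤ M := (pow_nonneg hx n).trans h
    linarith
  · have : x ≤ x ^ n := by
      calc x = x ^ 1 := (pow_one x).symm
        _ ≤ x ^ n := pow_le_pow_right₀ h1.le hn
    linarith

end H23

end
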