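import Mathlib

/-!
# helper22: bounds for roots of monic polynomials, and decay at `i∞`
-/

set_option autoImplicit false

noncomputable section

namespace H23

open UpperHalfPlane Filter Topology

/-- Key inequality: a root `w` of a monic polynomial satisfies
`‖w‖ ^ μ ≤ ∑_{i<μ} ‖c (i+1)‖ * ‖w‖ ^ (μ - (i+1))`. -/
theorem norm_pow_le_of_monic_root (μ : ℕ) (c : ℕ → ℂ) (hc0 : c 0 = 1) (w : ℂ)
    (h : ∑ i ∈ Finset.range (μ + 1), c i * w ^ (μ - i) = 0) :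
    ‖w‖ ^ μ ≤ ∑ i ∈ Finset.range μ, ‖c (i + 1)‖ * ‖w‖ ^ (μ - (i + 1)) := by
  rw [Finset.sum_range_succ', hc0, one_mul, Nat.sub_zero] at h
  have h1 : w ^ μ = -∑ i ∈ Finset.range μ, c (i + 1) * w ^ (μ - (i + 1)) := by
    linear_combination h
  calc ‖w‖ ^ μ = ‖w ^ μ‖ := (norm_pow _ _).symm
    _ = ‖∑ i ∈ Finset.range μ, c (i + 1) * w ^ (μ - (i + 1))‖ := by rw [h1, norm_neg]
    _ ≤ ∑ i ∈ Finset.range μ, ‖c (i + 1) * w ^ (μ - (i + 1))‖ := norm_sum_le _ _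
    _ = ∑ i ∈ Finset.range μ, ‖c (i + 1)‖ * ‖w‖ ^ (μ - (i + 1)) := by
      refine Finset.sum_congr rfl fun i _ => ?_
      rw [norm_mul, norm_pow]

/-- A root of a monic polynomial is bounded by `1 + ∑ ‖cᵢ‖`. -/
theorem norm_le_of_monic_root (μ : ℕ) (c : ℕ → ℂ) (hc0 : c 0 = 1) (w : ℂ)
    (h : ∑ i ∈ Finset.range (μ + 1), c i * w ^ (μ - i) = 0) :
    ‖w‖ ≤ 1 + ∑ i ∈ Finset.range μ, ‖c (i + 1)‖ := by
  have hS : 0 ≤ ∑ i ∈ Finset.range μ, ‖c (i + 1)‖ :=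
    Finset.sum_nonneg fun i _ => norm_nonneg _
  rcases le_or_gt ‖w‖ 1 with h1 | h1
  · linarith
  have key := norm_pow_le_of_monic_root μ c hc0 w h
  rcases Nat.eq_zero_or_pos μ with hμ | hμ
  · subst hμ
    simp at key
    linarith
  have h2 : ∑ i ∈ Finset.range μ, ‖c (i + 1)‖ * ‖w‖ ^ (μ - (i + 1)) ≤
      (∑ i ∈ Finset.range μ, ‖c (i + 1)‖) * ‖w‖ ^ (μ - 1) := by
    rw [Finset.sum_mul]
    refine Finset.sum_le_sum fun i _ => ?_
    refine mul_le_mul_of_nonneg_left ?_ (norm_nonneg _)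
    exact pow_le_pow_right₀ h1.le (by omega)
  have h3 : ‖w‖ ^ μ = ‖w‖ * ‖w‖ ^ (μ - 1) := by
    rw [← pow_succ', Nat.sub_add_cancel hμ]
  have h4 : 0 < ‖w‖ ^ (μ - 1) := pow_pos (by linarith) _
  have h5 : ‖w‖ * ‖w‖ ^ (μ - 1) ≤ (∑ i ∈ Finset.range μ, ‖c (i + 1)‖) * ‖w‖ ^ (μ - 1) := by
    rw [← h3]
    exact key.trans h2
  have h6 := le_of_mul_le_mul_right h5 h4
  linarith

/-- Quantitative decay: `‖w‖ ^ μ ≤ S * (1 + S) ^ μ` with `S = ∑ ‖cᵢ‖`. -/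
theorem norm_pow_le_sum_mul_of_monic_root (μ : ℕ) (c : ℕ → ℂ) (hc0 : c 0 = 1) (w : ℂ)
    (h : ∑ i ∈ Finset.range (μ + 1), c i * w ^ (μ - i) = 0) :
    ‖w‖ ^ μ ≤ (∑ i ∈ Finset.range μ, ‖c (i + 1)‖) *
      (1 + ∑ i ∈ Finset.range μ, ‖c (i + 1)‖) ^ μ := by
  have hS : 0 ≤ ∑ i ∈ Finset.range μ, ‖c (i + 1)‖ :=
    Finset.sum_nonneg fun i _ => norm_nonneg _
  have hb := norm_le_of_monic_root μ c hc0 w h
  refine (norm_pow_le_of_monic_root μ c hc0 w h).trans ?_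
  rw [Finset.sum_mul]
  refine Finset.sum_le_sum fun i _ => ?_
  refine mul_le_mul_of_nonneg_left ?_ (norm_nonneg _)
  calc ‖w‖ ^ (μ - (i + 1)) ≤ (1 + ∑ i ∈ Finset.range μ, ‖c (i + 1)‖) ^ (μ - (i + 1)) :=
        pow_le_pow_left₀ (norm_nonneg _) hb _
    _ ≤ (1 + ∑ i ∈ Finset.range μ, ‖c (i + 1)‖) ^ μ :=
        pow_le_pow_right₀ (by linarith) (by omega)

/-- If `w` is a root of a monic polynomial whose lower coefficients tend to `0` along a filter,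
then `w` tends to `0`. -/
theorem tendsto_zero_of_monic_root {α : Type*} (l : Filter α) (w : α → ℂ) (μ : ℕ) (hμ : 0 < μ)
    (c : ℕ → α → ℂ) (hc0 : ∀ z, c 0 z = 1)
    (hc : ∀ i, 0 < i → Tendsto (c i) l (𝓝 0))
    (hrel : ∀ᶠ z in l, ∑ i ∈ Finset.range (μ + 1), c i z * w z ^ (μ - i) = 0) :
    Tendsto w l (𝓝 0) := by
  have hS : Tendsto (fun z => ∑ i ∈ Finset.range μ, ‖c (i + 1) z‖) l (𝓝 0) := by
    have : Tendsto (fun z => ∑ i ∈ Finset.range μ, ‖c (i + 1) z‖) l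
        (𝓝 (∑ _i ∈ Finset.range μ, (0 : ℝ))) :=
      tendsto_finsetSum _ fun i _ => by
        simpa using (hc (i + 1) (Nat.succ_pos i)).norm
    simpa using this
  have hT : Tendsto (fun z => (∑ i ∈ Finset.range μ, ‖c (i + 1) z‖) *
      (1 + ∑ i ∈ Finset.range μ, ‖c (i + 1) z‖) ^ μ) l (𝓝 0) := by
    have := hS.mul ((tendsto_const_nhds (x := (1 : ℝ)).add hS).pow μ)
    simpa using this
  have hpow : Tendsto (fun z => ‖w z‖ ^ μ) l (𝓝 0) := by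
    refine squeeze_zero' (Eventually.of_forall fun z => pow_nonneg (norm_nonneg _) _) ?_ hT
    filter_upwards [hrel] with z hz
    exact norm_pow_le_sum_mul_of_monic_root μ (fun i => c i z) (hc0 z) (w z) hz
  rw [tendsto_zero_iff_norm_tendsto_zero]
  have hroot : Tendsto (fun z => (‖w z‖ ^ μ) ^ ((μ : ℝ)⁻¹)) l (𝓝 (0 ^ ((μ : ℝ)⁻¹))) :=
    hpow.rpow_const (Or.inr (by positivity))
  rw [Real.zero_rpow (by positivity)] at hroot
  refine hroot.congr fun z => ?_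
  rw [← Real.rpow_natCast, ← Real.rpow_mul (norm_nonneg _), mul_inv_cancel₀ (by positivity),
    Real.rpow_one]

/-- Version at `i∞`. -/
theorem isZeroAtImInfty_of_integral (w : ℍ → ℂ) (μ : ℕ) (hμ : 0 < μ) (c : ℕ → ℍ → ℂ)
    (hc0 : c 0 = 1) (hc : ∀ i, 0 < i → IsZeroAtImInfty (c i))
    (hrel : ∀ z, ∑ i ∈ Finset.range (μ + 1), c i z * w z ^ (μ - i) = 0) :
    IsZeroAtImInfty w :=
  tendsto_zero_of_monic_root atImInfty w μ hμ c (fun z => by rw [hc0]; rfl)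
    (fun i hi => hc i hi) (Eventually.of_forall hrel)

end H23

end
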